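import Mathlib

/-!
# The eigen-idempotent of a commutative ring acting on a finite module
-/

set_option autoImplicit false

namespace Fermat.Agent.Mazur

variable {R : Type*} [CommRing R] {V : Type*} [AddCommGroup V] [Module R V] {e : ℕ}

/-- `u` acts on `S` as the idempotent cutting out the part on which `R` acts through `ε`
up to nilpotents. -/
structure IsEigenIdem (ε : R →+* ZMod e) (S : Submodule R V) (u : R) : Prop where
  eval : ε u = 1
  idem : ∀ v ∈ S, u • u • v = u • v
  nilp : ∀ r, ε r = 0 → ∃ n : ℕ, ∀ v ∈ S, (r ^ n * u) • v = 0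

lemma IsEigenIdem.mono {ε : R →+* ZMod e} {S T : Submodule R V} {u : R}
    (h : IsEigenIdem ε S u) (hTS : T ≤ S) : IsEigenIdem ε T u :=
  ⟨h.eval, fun v hv => h.idem v (hTS hv), fun r hr => (h.nilp r hr).imp fun _ hn v hv => hn v (hTS hv)⟩

lemma IsEigenIdem.absorb {ε : R →+* ZMod e} {S : Submodule R V} {u w : R}
    (hu : IsEigenIdem ε S u) (hw : IsEigenIdem ε S w) {v : V} (hv : v ∈ S) :
    (u * w) • v = u • v := by
  obtain ⟨n, hn⟩ := hu.nilp (1 - w) (by rw [map_sub, map_one, hw.eval, sub_self])
  have hidem : ∀ x ∈ S, ((1 - w) * (1 - w)) • x = (1 - w) • x := fun x hx => by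
    have h := hw.idem x hx
    rw [mul_smul, sub_smul, one_smul, sub_smul, one_smul, smul_sub, h]
    abel
  have hpow : ∀ m : ℕ, ∀ x ∈ S, ((1 - w) ^ (m + 1)) • x = (1 - w) • x := by
    intro m
    induction m with
    | zero => intro x _; rw [zero_add, pow_one]
    | succ m ih =>
      intro x hx
      rw [pow_succ, mul_smul, ih _ (S.smul_mem _ hx), ← mul_smul]
      exact hidem x hx
  have h0 : ((1 - w) ^ (n + 1) * u) • v = 0 := by
    rw [pow_succ', mul_assoc, mul_smul, hn v hv, smul_zero]
  rw [mul_smul, hpow n _ (S.smul_mem _ hv), ← mul_smul, sub_mul, one_mul, sub_smul, sub_eq_zero] at h0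
  rw [mul_comm]; exact h0.symm

lemma IsEigenIdem.unique {ε : R →+* ZMod e} {S : Submodule R V} {u w : R}
    (hu : IsEigenIdem ε S u) (hw : IsEigenIdem ε S w) {v : V} (hv : v ∈ S) :
    u • v = w • v := by
  rw [← hu.absorb hw hv, mul_comm, hw.absorb hu hv]

variable [Fact (Nat.Prime e)]

theorem exists_isEigenIdem (ε : R →+* ZMod e) (S : Submodule R V) [Finite S]
    (hε : ∀ r, (∀ v ∈ S, r • v = 0) → ε r = 0) : ∃ u, IsEigenIdem ε S u := by
  classical
  let ann : Ideal R := Module.annihilator R S
  have hann : ∀ r, r ∈ ann ↔ ∀ v ∈ S, r • v = 0 := fun r => by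
    rw [Module.mem_annihilator]
    exact ⟨fun h v hv => congrArg Subtype.val (h ⟨v, hv⟩), fun h v => Subtype.ext (h v.1 v.2)⟩
  let act : (R ⧸ ann) → (S → S) :=
    Quotient.lift (fun r (v : S) => r • v) fun r r' h => by
      funext v
      have h' : r - r' ∈ ann := (Submodule.quotientRel_def ann).1 h
      have := (Module.mem_annihilator).1 h' v
      rwa [sub_smul, sub_eq_zero] at this
  have : Finite (R ⧸ ann) := by
    refine Finite.of_injective act fun a b => ?_
    induction a using Quotient.inductionOn' with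
    | h r =>
      induction b using Quotient.inductionOn' with
      | h r' =>
        intro hab
        refine (Ideal.Quotient.eq).2 (Module.mem_annihilator.2 fun v => ?_)
        rw [sub_smul, sub_eq_zero]
        exact congrFun hab v
  let Q := R ⧸ ann
  let eQ : Q →+* ZMod e := Ideal.Quotient.lift ann ε fun r hr => hε r ((hann r).1 hr)
  let F : Finset Q := (Set.toFinite {x : Q | x * x = x ∧ eQ x = 1}).toFinset
  have hF : ∀ x, x ∈ F ↔ x * x = x ∧ eQ x = 1 := fun x => Set.Finite.mem_toFinset _
  set U : Q := ∏ x ∈ F, x with hU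
  have hUi : U * U = U := by
    rw [hU, ← Finset.prod_mul_distrib]
    exact Finset.prod_congr rfl fun x hx => ((hF x).1 hx).1
  have hUe : eQ U = 1 := by
    rw [hU, map_prod]; exact Finset.prod_eq_one fun x hx => ((hF x).1 hx).2
  have habs : ∀ x, x * x = x → eQ x = 1 → x * U = U := fun x hx he => by
    have hxF := (hF x).2 ⟨hx, he⟩
    rw [hU, ← Finset.mul_prod_erase F (fun y => y) hxF, ← mul_assoc, hx]
  obtain ⟨u, hu⟩ := Ideal.Quotient.mk_surjective U
  refine ⟨u, ⟨?_, fun v hv => ?_, fun r hr => ?_⟩⟩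
  · have : eQ (Ideal.Quotient.mk ann u) = ε u := Ideal.Quotient.lift_mk _ _ _
    rw [← this, hu, hUe]
  · have h2 : Ideal.Quotient.mk ann (u * u) = Ideal.Quotient.mk ann u := by
      rw [map_mul, hu, hUi]
    have := (hann _).1 ((Ideal.Quotient.eq).1 h2) v hv
    rwa [sub_smul, sub_eq_zero, mul_smul] at this
  · set x : Q := Ideal.Quotient.mk ann r * U with hx
    obtain ⟨i, j, hij, hpow⟩ := Finite.exists_ne_map_eq_of_infinite (fun k : ℕ => x ^ k)
    wlog hlt : i < j generalizing i j
    · exact this j i hij.symm hpow.symm (by omega)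
    set d := j - i with hd
    have hper : ∀ t, i ≤ t → x ^ (t + d) = x ^ t := fun t ht => by
      obtain ⟨s, rfl⟩ := Nat.exists_eq_add_of_le ht
      rw [show i + s + d = j + s by omega, pow_add, pow_add, show x ^ i = x ^ j from hpow]
    have hmul : ∀ m t, i ≤ t → x ^ (t + m * d) = x ^ t := by
      intro m
      induction m with
      | zero => intro t _; rw [Nat.zero_mul, Nat.add_zero]
      | succ m ih =>
        intro t ht
        rw [Nat.succ_mul, ← Nat.add_assoc, hper _ (by omega), ih t ht]
    set n := (i + 1) * d with hn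
    have hin : i ≤ n ∧ 0 < n := by
      have h1 : i + 1 ≤ n := Nat.le_mul_of_pos_right _ (by omega)
      omega
    have hidem : x ^ n * x ^ n = x ^ n := by
      rw [← pow_add]; exact hmul (i + 1) n hin.1
    have hex : eQ (x ^ n) = 0 := by
      rw [map_pow, hx, map_mul]
      rw [show eQ (Ideal.Quotient.mk ann r) = ε r from Ideal.Quotient.lift_mk _ _ _, hr, zero_mul,
        zero_pow hin.2.ne']
    have hc := habs (1 - x ^ n) (by linear_combination hidem)
      (by rw [map_sub, map_one, hex, sub_zero])
    have h0 : x ^ n * U = 0 := by linear_combination -hc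
    have hUn : ∀ m : ℕ, U ^ (m + 1) = U := by
      intro m
      induction m with
      | zero => rw [zero_add, pow_one]
      | succ m ih => rw [pow_succ, ih, hUi]
    have hzero : Ideal.Quotient.mk ann (r ^ n * u) = 0 := by
      rw [map_mul, map_pow, hu]
      have : x ^ n * U = Ideal.Quotient.mk ann r ^ n * U := by
        rw [hx, mul_pow, mul_assoc, ← pow_succ, hUn]
      rw [← this, h0]
    exact ⟨n, (hann _).1 ((Ideal.Quotient.eq_zero_iff_mem).1 hzero)⟩

end Fermat.Agent.Mazur
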