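import Fermat.Agent.Mazur.Descent.Triples
import Mathlib.GroupTheory.PGroup

/-!
# Line quotients of a module with two characters

If every group element `g` acts on a finite module killed by `e` so that
`(g - 1) (g - χ g)` is nilpotent, every non-zero module has a quotient line with character
`1` or `χ`.
-/

set_option autoImplicit false

open scoped Classical

namespace Fermat.Agent.Mazur

variable {G : Type*} [Group G] {e : ℕ} [he : Fact e.Prime]

section Line

variable {V : Type*} [AddCommGroup V] [DistribMulAction G V]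

/-- The operator `(g - 1) (g - c)`. -/
def quadOp (g : G) (c : ℕ) (x : V) : V := g • (g • x - c • x) - (g • x - c • x)

/-- `g - 1` as an endomorphism. -/
def moveEnd (g : G) : AddMonoid.End V :=
  DistribSMul.toAddMonoidHom V g - AddMonoidHom.id V

lemma moveEnd_apply (g : G) (x : V) : moveEnd g x = g • x - x := rfl

/-- A unipotent element has `e`-power order on a module killed by `e`. -/
lemma exists_pow_smul_eq (hV : ∀ x : V, e • x = 0) {g : G} {n : ℕ}
    (hn : ∀ x : V, (fun y => g • y - y)^[n] x = 0) :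
    ∀ x : V, g ^ e ^ n • x = x := by
  set D : AddMonoid.End V := moveEnd g
  have hiter : ∀ (m : ℕ) (x : V), (D ^ m) x = (fun y => g • y - y)^[m] x := by
    intro m
    induction m with
    | zero => intro x; rfl
    | succ m ih =>
      intro x
      rw [Function.iterate_succ_apply', ← ih, pow_succ']
      rfl
  have hpowg : ∀ (m : ℕ) (x : V), ((D + 1) ^ m) x = g ^ m • x := by
    intro m
    induction m with
    | zero => intro x; rw [pow_zero, pow_zero, one_smul]; rfl
    | succ m ih =>
      intro x
      rw [pow_succ', pow_succ', mul_smul, ← ih]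
      show D (((D + 1) ^ m) x) + ((D + 1) ^ m) x = _
      rw [moveEnd_apply, sub_add_cancel]
  intro x
  obtain ⟨r, hr⟩ := (Commute.one_right D).exists_add_pow_prime_pow_eq he.out n
  rw [← hpowg, hr, one_pow]
  have hle : n ≤ e ^ n := (Nat.lt_pow_self he.out.one_lt).le
  have hzero : (D ^ e ^ n) x = 0 := by
    obtain ⟨d, hd⟩ := Nat.exists_eq_add_of_le hle
    rw [hiter, hd, Function.iterate_add_apply, hn]
  show (D ^ e ^ n) x + x + ((e : AddMonoid.End V) * D * 1 * r) x = x
  rw [hzero, zero_add, mul_assoc, mul_assoc]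
  show x + (e : AddMonoid.End V) ((D * (1 * r)) x) = x
  rw [AddMonoid.End.natCast_apply, hV, add_zero]

/-- A simple module is a line with character `1` or `χ`. -/
lemma exists_line_of_simple [Finite V] [Nontrivial V] (hV : ∀ x : V, e • x = 0)
    (χ : G →* (ZMod e)ˣ)
    (hP : ∀ g : G, ∃ n, ∀ x : V, (quadOp g (χ g : ZMod e).val)^[n] x = 0)
    (hsimple : ∀ W : AddSubgroup V, (∀ g : G, ∀ x ∈ W, g • x ∈ W) → W = ⊥ ∨ W = ⊤) :
    ∃ (π : V →+ ZMod e) (ψ : G → ZMod e), Function.Surjective π ∧
      ((∀ g, ψ g = 1) ∨ (∀ g, ψ g = (χ g : ZMod e))) ∧ ∀ (g : G) (x : V), π (g • x) = ψ g * π x := by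
  have : Fintype V := Fintype.ofFinite V
  -- elements of `ker χ` act trivially
  let ρ : G →* Function.End V := MulAction.toEndHom
  let H : Subgroup G := χ.ker
  have hH : ∀ g ∈ H, ∃ m : ℕ, ∀ x : V, g ^ e ^ m • x = x := by
    intro g hg
    obtain ⟨n, hn⟩ := hP g
    have h1 : (χ g : ZMod e).val = 1 := by
      rw [MonoidHom.mem_ker.1 hg, Units.val_one, ZMod.val_one]
    refine ⟨2 * n, exists_pow_smul_eq hV fun x => ?_⟩
    have h2 : ∀ (m : ℕ) (y : V), (fun z => g • z - z)^[2 * m] y =
        (quadOp g (χ g : ZMod e).val)^[m] y := by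
      intro m
      induction m with
      | zero => intro y; rfl
      | succ m ih =>
        intro y
        rw [show 2 * (m + 1) = 2 * m + 1 + 1 by ring, Function.iterate_succ_apply',
          Function.iterate_succ_apply', ih, Function.iterate_succ_apply', quadOp, h1, one_smul]
    rw [h2, hn]
  let φ : H →* Equiv.Perm V := (MulAction.toPermHom G V).comp H.subtype
  have hpg : IsPGroup e φ.range := by
    rintro ⟨_, ⟨g, rfl⟩⟩
    obtain ⟨m, hm⟩ := hH g g.2
    refine ⟨m, Subtype.ext ?_⟩
    show (φ g) ^ e ^ m = 1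
    rw [← map_pow]
    exact Equiv.ext fun x => hm x
  have hdvd : e ∣ Nat.card V := by
    obtain ⟨v, hv⟩ := exists_ne (0 : V)
    have := addOrderOf_dvd_natCard (G := V) v
    rwa [addOrderOf_eq_prime (hV v) hv] at this
  obtain ⟨v, hv, hv0⟩ := hpg.exists_fixed_point_of_prime_dvd_card_of_fixed_point V hdvd
    (a := 0) (by
      rintro ⟨_, ⟨g, rfl⟩⟩
      exact smul_zero (g : G))
  have hHfix : ∀ g ∈ H, ∀ x : V, g • x = x := by
    let W : AddSubgroup V :=
      { carrier := {x | ∀ g ∈ H, g • x = x}
        zero_mem' := fun g _ => smul_zero g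
        add_mem' := fun {x y} hx hy g hg => by rw [smul_add, hx g hg, hy g hg]
        neg_mem' := fun {x} hx g hg => by rw [smul_neg, hx g hg] }
    have hW : ∀ g : G, ∀ x ∈ W, g • x ∈ W := fun g x hx k hk => by
      have h1 : g⁻¹ * k * g ∈ H := by
        show χ (g⁻¹ * k * g) = 1
        rw [map_mul, map_mul, MonoidHom.mem_ker.1 hk, mul_one, ← map_mul, inv_mul_cancel, map_one]
      have h2 := hx _ h1
      rw [mul_smul, mul_smul, inv_smul_eq_iff] at h2
      exact h2
    rcases hsimple W hW with h0 | h0
    · have hvW : v ∈ W := fun g hg => hv ⟨φ ⟨g, hg⟩, ⟨_, rfl⟩⟩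
      rw [h0, AddSubgroup.mem_bot] at hvW
      exact absurd hvW.symm hv0
    · exact fun g hg x => (h0 ▸ AddSubgroup.mem_top x : x ∈ W) g hg
  have hcomm : ∀ (g k : G) (x : V), g • k • x = k • g • x := fun g k x => by
    have hmem : (k * g)⁻¹ * (g * k) ∈ H := by
      show χ _ = 1
      rw [map_mul, map_inv, map_mul, map_mul, mul_comm (χ g) (χ k), inv_mul_cancel]
    have := hHfix _ hmem x
    rw [mul_smul, inv_smul_eq_iff, mul_smul, mul_smul] at this
    exact this
  -- each element is scalar
  have hscalar : ∀ g : G, (∀ x : V, g • x = x) ∨ ∀ x : V, g • x = (χ g : ZMod e).val • x := by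
    intro g
    set c := (χ g : ZMod e).val
    have key : ∀ d : ℕ, (∀ x : V, g • x = d • x) ∨ ∀ x : V, g • x = d • x → x = 0 := by
      intro d
      let W : AddSubgroup V :=
        { carrier := {x | g • x = d • x}
          zero_mem' := by show g • (0 : V) = d • (0 : V); rw [smul_zero, smul_zero]
          add_mem' := fun {x y} (hx : g • x = d • x) (hy : g • y = d • y) =>
            show g • (x + y) = d • (x + y) by rw [smul_add, smul_add, hx, hy]
          neg_mem' := fun {x} (hx : g • x = d • x) =>
            show g • -x = d • -x by rw [smul_neg, smul_neg, hx] }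
      rcases hsimple W (fun k x (hx : g • x = d • x) =>
        show g • k • x = d • k • x by rw [hcomm, hx, smul_comm]) with h0 | h0
      · exact Or.inr fun x hx => by
          have : x ∈ W := hx
          rwa [h0, AddSubgroup.mem_bot] at this
      · exact Or.inl fun x => (h0 ▸ AddSubgroup.mem_top x : x ∈ W)
    rcases key 1 with h1 | h1
    · exact Or.inl fun x => by rw [h1 x, one_smul]
    rcases key c with h2 | h2
    · exact Or.inr h2
    exfalso
    obtain ⟨n, hn⟩ := hP g
    have hinj : ∀ y : V, quadOp g c y = 0 → y = 0 := fun y hy => by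
      rw [quadOp, sub_eq_zero] at hy
      exact h2 y (sub_eq_zero.1 (h1 _ (by rw [hy, one_smul])))
    obtain ⟨x, hx⟩ := exists_ne (0 : V)
    rw [show (χ g : ZMod e).val = c from rfl] at hn
    clear_value c
    induction n with
    | zero => exact hx (hn x)
    | succ n ih => exact ih fun y => hinj _ (by rw [← Function.iterate_succ_apply' (quadOp g c), hn])
  -- so every subgroup is stable
  obtain ⟨v, hv⟩ := exists_ne (0 : V)
  have hgen : AddSubgroup.zmultiples v = ⊤ := by
    refine (hsimple _ fun g x hx => ?_).resolve_left fun h0 => hv ?_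
    · rcases hscalar g with h1 | h1
      · rwa [h1]
      · rw [h1]; exact nsmul_mem hx _
    · exact AddSubgroup.mem_bot.1 (h0 ▸ AddSubgroup.mem_zmultiples v)
  let L : ZMod e →+ V := ZMod.lift e ⟨(zmultiplesHom V) v, by
    show ((e : ℕ) : ℤ) • v = 0
    rw [natCast_zsmul, hV]⟩
  have hLcast : ∀ m : ℤ, L (m : ZMod e) = m • v := fun m => by
    rw [ZMod.lift_coe]; rfl
  have hLsurj : Function.Surjective L := fun x => by
    obtain ⟨m, rfl⟩ := AddSubgroup.mem_zmultiples_iff.1 (hgen ▸ AddSubgroup.mem_top x : x ∈ AddSubgroup.zmultiples v)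
    exact ⟨m, hLcast m⟩
  have hLinj : Function.Injective L := (injective_iff_map_eq_zero L).2 fun a ha => by
    obtain ⟨m, rfl⟩ := ZMod.intCast_surjective a
    rw [hLcast] at ha
    have := addOrderOf_dvd_iff_zsmul_eq_zero.2 ha
    rw [addOrderOf_eq_prime (hV v) hv] at this
    exact (ZMod.intCast_zmod_eq_zero_iff_dvd m e).2 this
  let E : ZMod e ≃+ V := AddEquiv.ofBijective L ⟨hLinj, hLsurj⟩
  refine ⟨E.symm.toAddMonoidHom, fun g => if ∀ x : V, g • x = x then 1 else (χ g : ZMod e),
    E.symm.surjective, ?_, fun g x => ?_⟩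
  · by_contra hcon
    push Not at hcon
    obtain ⟨⟨a, ha⟩, b, hb⟩ := hcon
    have ha1 : ¬ ∀ x : V, a • x = x := fun h => ha (if_pos h)
    have ha' : ∀ x : V, a • x = (χ a : ZMod e).val • x := (hscalar a).resolve_left ha1
    have hb1 : ∀ x : V, b • x = x := by
      by_contra h
      exact hb (if_neg h)
    have hbχ : (χ b : ZMod e) ≠ 1 := fun h => hb (by rw [if_pos hb1, h])
    rcases hscalar (a * b) with h | h
    · exact ha1 fun x => by simpa [mul_smul, hb1] using h x
    · refine hbχ ?_
      have h3 := h v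
      rw [mul_smul, hb1, ha'] at h3
      have h4 : L ((χ a : ZMod e)) = L ((χ (a * b) : ZMod e)) := by
        rw [← ZMod.natCast_zmod_val ((χ a : ZMod e)), ← ZMod.natCast_zmod_val ((χ (a * b) : ZMod e)),
          ← Int.cast_natCast, ← Int.cast_natCast (R := ZMod e), hLcast, hLcast, natCast_zsmul,
          natCast_zsmul]
        exact h3
      have h5 := hLinj h4
      rw [map_mul, Units.val_mul, eq_comm, mul_eq_left₀ (Units.ne_zero _)] at h5
      exact h5
  · show E.symm (g • x) = (if ∀ x : V, g • x = x then 1 else (χ g : ZMod e)) * E.symm x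
    split
    · rename_i h
      rw [h, one_mul]
    · rename_i h
      rw [(hscalar g).resolve_left h, map_nsmul, nsmul_eq_mul, ZMod.natCast_zmod_val]

/-- Every non-zero finite module has a line quotient. -/
lemma exists_line [Finite V] [Nontrivial V] (hV : ∀ x : V, e • x = 0) (χ : G →* (ZMod e)ˣ)
    (hP : ∀ g : G, ∃ n, ∀ x : V, (quadOp g (χ g : ZMod e).val)^[n] x = 0) :
    ∃ (π : V →+ ZMod e) (ψ : G → ZMod e), Function.Surjective π ∧
      ((∀ g, ψ g = 1) ∨ (∀ g, ψ g = (χ g : ZMod e))) ∧ ∀ (g : G) (x : V), π (g • x) = ψ g * π x := by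
  have : Finite (AddSubgroup V) := Finite.of_injective _ SetLike.coe_injective
  obtain ⟨W, ⟨hWst, hWne⟩, hWmax⟩ := (Set.toFinite
    {W : AddSubgroup V | (∀ g : G, ∀ x ∈ W, g • x ∈ W) ∧ W ≠ ⊤}).exists_maximal
    ⟨⊥, fun g x hx => by
      rw [AddSubgroup.mem_bot] at hx ⊢; rw [hx, smul_zero], bot_ne_top⟩
  let act : SMul G (V ⧸ W) :=
    ⟨fun g => QuotientAddGroup.map W W (DistribSMul.toAddMonoidHom V g) fun x hx => hWst g x hx⟩
  have hsmul : ∀ (g : G) (x : V), g • (x : V ⧸ W) = ((g • x : V) : V ⧸ W) := fun g x => rfl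
  let : DistribMulAction G (V ⧸ W) :=
    { one_smul := fun q => by
        obtain ⟨x, rfl⟩ := QuotientAddGroup.mk_surjective q
        rw [hsmul, one_smul]
      mul_smul := fun g k q => by
        obtain ⟨x, rfl⟩ := QuotientAddGroup.mk_surjective q
        rw [hsmul, hsmul, hsmul, mul_smul]
      smul_zero := fun g => map_zero _
      smul_add := fun g => map_add _ }
  have : Nontrivial (V ⧸ W) := by
    obtain ⟨x, hx⟩ : ∃ x, x ∉ W := by
      by_contra h
      push Not at h
      exact hWne (eq_top_iff.2 fun x _ => h x)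
    exact ⟨⟨x, 0, fun h => hx ((QuotientAddGroup.eq_zero_iff x).1 h)⟩⟩
  obtain ⟨π, ψ, hπ, hψ, hπψ⟩ := exists_line_of_simple (V := V ⧸ W) (fun q => by
      obtain ⟨x, rfl⟩ := QuotientAddGroup.mk_surjective q
      rw [← QuotientAddGroup.mk_nsmul, hV, QuotientAddGroup.mk_zero]) χ
    (fun g => by
      obtain ⟨n, hn⟩ := hP g
      refine ⟨n, fun q => ?_⟩
      obtain ⟨x, rfl⟩ := QuotientAddGroup.mk_surjective q
      have key : ∀ m, (quadOp g (χ g : ZMod e).val)^[m] (x : V ⧸ W) =
          (((quadOp g (χ g : ZMod e).val)^[m] x : V) : V ⧸ W) := by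
        intro m
        induction m with
        | zero => rfl
        | succ m ih =>
          rw [Function.iterate_succ_apply', Function.iterate_succ_apply', ih]
          rfl
      rw [key, hn, QuotientAddGroup.mk_zero])
    (fun U hU => by
      by_cases htop : U.comap (QuotientAddGroup.mk' W) = ⊤
      · refine Or.inr (eq_top_iff.2 fun q _ => ?_)
        obtain ⟨x, rfl⟩ := QuotientAddGroup.mk_surjective q
        exact (htop ▸ AddSubgroup.mem_top x : x ∈ U.comap (QuotientAddGroup.mk' W))
      · refine Or.inl ((AddSubgroup.eq_bot_iff_forall U).2 fun q hq => ?_)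
        obtain ⟨x, rfl⟩ := QuotientAddGroup.mk_surjective q
        have hle : W ≤ U.comap (QuotientAddGroup.mk' W) := fun y hy => by
          show (y : V ⧸ W) ∈ U
          rw [(QuotientAddGroup.eq_zero_iff y).2 hy]; exact zero_mem U
        have := hWmax (y := U.comap (QuotientAddGroup.mk' W))
          ⟨fun g y hy => hU g _ hy, htop⟩ hle
        exact (QuotientAddGroup.eq_zero_iff x).2 (this hq))
  exact ⟨π.comp (QuotientAddGroup.mk' W), ψ, hπ.comp (QuotientAddGroup.mk'_surjective W), hψ,
    fun g x => hπψ g x⟩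

end Line

variable {J : Type*} [AddCommGroup J] [DistribMulAction G J]

/-- The line condition from the two-character relation and admissibility of the characters. -/
theorem LocalData.hasLines (L : LocalData G e) (M : AddSubgroup J) [Finite M]
    (hM : ∀ x ∈ M, e • x = 0) (χ : G →* (ZMod e)ˣ)
    (hP : ∀ g : G, ∃ n, ∀ x ∈ M, (quadOp g (χ g : ZMod e).val)^[n] x = 0)
    (h1 : L.AdmissibleChar fun _ => 1) (hχ : L.AdmissibleChar fun g => (χ g : ZMod e)) :
    L.HasLines M := by
  intro M' hle hne hst
  let : SMul G M' := ⟨fun g x => ⟨g • (x : J), hst g x x.2⟩⟩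
  let : DistribMulAction G M' :=
    { one_smul := fun x => Subtype.ext (one_smul G (x : J))
      mul_smul := fun g k x => Subtype.ext (mul_smul g k (x : J))
      smul_zero := fun g => Subtype.ext (smul_zero g)
      smul_add := fun g x y => Subtype.ext (smul_add g (x : J) y) }
  have : Finite M' := Finite.of_injective _ (AddSubgroup.inclusion_injective hle)
  have : Nontrivial M' := (AddSubgroup.nontrivial_iff_ne_bot M').2 hne
  obtain ⟨π, ψ, hπ, hψ, hπψ⟩ := exists_line (V := M') (fun x => Subtype.ext (hM x (hle x.2))) χ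
    fun g => by
      obtain ⟨n, hn⟩ := hP g
      refine ⟨n, fun x => Subtype.ext ?_⟩
      have key : ∀ m, (((quadOp g (χ g : ZMod e).val)^[m] x : M') : J) =
          (quadOp g (χ g : ZMod e).val)^[m] (x : J) := by
        intro m
        induction m with
        | zero => rfl
        | succ m ih =>
          rw [Function.iterate_succ_apply', Function.iterate_succ_apply', ← ih]
          rfl
      rw [key, hn _ (hle x.2)]
      rfl
  refine ⟨π, ψ, hπ, ?_, fun σ x y hy => ?_⟩
  · rcases hψ with h | h
    · rw [show ψ = fun _ => 1 from funext h]; exact h1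
    · rw [show ψ = fun g => (χ g : ZMod e) from funext h]; exact hχ
  · rw [show y = σ • x from Subtype.ext hy]
    exact hπψ σ x

end Fermat.Agent.Mazur
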