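import Fermat.Agent.Mazur.Descent.Main

/-!
# The local sides of the descent and its conclusion

At a prime `N` where inertia acts unipotently on `e`-power torsion, tame inertia and a Frobenius
element show that a fixed non-zero multiple of every rational point is locally divisible; at the
real place twice every rational point is.  So some `t ≡ 1` modulo the Eisenstein ideal sends
every rational point to torsion.
-/

set_option autoImplicit false

open scoped Classical

namespace Fermat.Agent.Mazur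

namespace DescentCtx

variable {G : Type*} [Group G] {J : Type*} [AddCommGroup J] [DistribMulAction G J]
  {R : Type*} [CommRing R] [Module R J] (D : DescentCtx G J R) (L : LocalData G D.e)

/-- The tame description of a local set: generated on given points by one element, with a
Frobenius element satisfying a quadratic relation on torsion. -/
structure TameData (H : Set G) (N : ℕ) : Prop where
  unipotent : ∀ σ ∈ H, ∀ (k : ℕ), ∀ x ∈ D.tors k, σ • σ • x + x = σ • x + σ • x
  tame : ∀ (k : ℕ) (y : J), D.e ^ k • y ∈ fixedBy' (Set.univ : Set G) →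
    ∃ σ ∈ H, ∃ (φ : G) (t : R),
      (∀ τ ∈ H, ∃ i : ℕ, ∀ z, z = y ∨ z ∈ D.tors k → τ • z = σ ^ i • z) ∧
      (∀ z, z = y ∨ z ∈ D.tors k → φ • σ • z = σ ^ N • φ • z) ∧
      ∀ x ∈ D.tors k, φ • φ • x - t • φ • x + N • x = 0

variable {D}

lemma TameData.pow_smul {H : Set G} {N : ℕ} (hT : D.TameData H N) {σ : G} (hσ : σ ∈ H) {k : ℕ}
    {x : J} (hx : x ∈ D.tors k) (i : ℕ) : σ ^ i • x = x + i • (σ • x - x) := by
  induction i with
  | zero => simp
  | succ i ih =>
    have hu : σ • σ • x = σ • x + σ • x - x := eq_sub_of_add_eq (hT.unipotent σ hσ k x hx)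
    rw [pow_succ', mul_smul, ih, smul_add, smul_nsmul_comm, smul_sub, hu, succ_nsmul]
    rw [show σ • x + σ • x - x - σ • x = σ • x - x by abel]
    abel

lemma TameData.fixed_of_generator {H : Set G} {σ : G} {z : J}
    (hz : ∀ τ ∈ H, ∃ i : ℕ, τ • z = σ ^ i • z) (h : σ • z = z) : z ∈ fixedBy' H := fun τ hτ => by
  obtain ⟨i, hi⟩ := hz τ hτ
  rw [hi]
  clear hi
  induction i with
  | zero => simp
  | succ i ih => rw [pow_succ', mul_smul, ih, h]

variable (D)

/-- `x ↦ σ x - x` on the Eisenstein part. -/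
def moveHom (σ : G) (k : ℕ) : D.part k →+ D.part k where
  toFun x := ⟨σ • (x : J) - x, sub_mem (D.g_smul_mem_part σ x.2) x.2⟩
  map_zero' := Subtype.ext (by simp)
  map_add' x y := Subtype.ext (by
    show σ • ((x : J) + y) - ((x : J) + y) = σ • (x : J) - x + (σ • (y : J) - y)
    rw [smul_add]; abel)

lemma card_moveHom (σ : G) (k : ℕ) :
    Nat.card (D.part k) = Nat.card (D.moveHom σ k).range * Nat.card (D.moveHom σ k).ker := by
  rw [AddSubgroup.card_eq_card_quotient_mul_card_addSubgroup (D.moveHom σ k).ker,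
    Nat.card_congr (QuotientAddGroup.quotientKerEquivRange (D.moveHom σ k)).toEquiv]

variable {D}

lemma TameData.card_ker_le {H : Set G} {σ : G} {k : ℕ}
    (hgen : ∀ z ∈ D.tors k, ∀ τ ∈ H, ∃ i : ℕ, τ • z = σ ^ i • z) :
    Nat.card (D.moveHom σ k).ker ≤ Nat.card (D.fix H k) :=
  Nat.card_le_card_of_injective
    (fun x => ⟨x.1.1, x.1.2, TameData.fixed_of_generator (hgen _ x.1.2.1)
      (sub_eq_zero.1 (congrArg Subtype.val (AddMonoidHom.mem_ker.1 x.2)))⟩)
    fun _ _ h => Subtype.ext (Subtype.ext (Subtype.mk.inj h))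

lemma TameData.card_part_le {H : Set G} {N : ℕ} (hT : D.TameData H N) (k : ℕ) :
    Nat.card (D.part k) ≤ Nat.card (D.fix H k) ^ 2 := by
  obtain ⟨σ, hσ, φ, t, hgen, -⟩ := hT.tame k 0 (by rw [smul_zero]; exact zero_mem _)
  have hg : ∀ z ∈ D.tors k, ∀ τ ∈ H, ∃ i : ℕ, τ • z = σ ^ i • z := fun z hz τ hτ =>
    (hgen τ hτ).imp fun i hi => hi z (Or.inr hz)
  have hle : (D.moveHom σ k).range ≤ (D.moveHom σ k).ker := by
    rintro _ ⟨x, rfl⟩
    rw [AddMonoidHom.mem_ker]
    refine Subtype.ext ?_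
    show σ • (σ • (x : J) - x) - (σ • (x : J) - x) = 0
    have hu : σ • σ • (x : J) = σ • (x : J) + σ • x - x :=
      eq_sub_of_add_eq (hT.unipotent σ hσ k x x.2.1)
    rw [smul_sub, hu]; abel
  rw [D.card_moveHom σ k, sq]
  exact Nat.mul_le_mul ((AddSubgroup.card_le_of_le hle).trans (TameData.card_ker_le hg))
    (TameData.card_ker_le hg)

variable (D)

/-- A multiple of every rational point is locally divisible at the tame side. -/
theorem exists_multiple_isLocDiv {H : Set G} {N : ℕ} (hN : 2 ≤ N) (hNe : Nat.Coprime N D.e)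
    (hT : D.TameData H N) (hexact : Nat.card (D.localPart H) ^ 2 ≤ Nat.card (D.part 1)) :
    ∃ B : ℕ, 0 < B ∧ ∀ a ∈ fixedBy' (Set.univ : Set G), D.IsLocDiv H (B • a) := by
  obtain ⟨C, hC, hfixC⟩ := D.exists_card_fix_le H
  refine ⟨(C ^ 2).factorial * ((N - 1) * (N ^ 2 - 1)), ?_, fun a ha k => ?_⟩
  · have : 4 ≤ N ^ 2 := by nlinarith
    exact Nat.mul_pos (Nat.factorial_pos _) (Nat.mul_pos (by omega) (by omega))
  obtain ⟨y₀, hy₀⟩ := D.exists_nsmul_pow_eq k a
  set y := D.u k • y₀ with hy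
  have hey : D.e ^ k • y = D.u k • a := by rw [hy, ← r_smul_nsmul, hy₀]
  have heyfix : D.e ^ k • y ∈ fixedBy' (Set.univ : Set G) := by
    rw [hey]; exact D.fixed_smul _ _ ha
  obtain ⟨σ, hσ, φ, t, hgen, hconj, hrel⟩ := hT.tame k y heyfix
  have hX : ∀ g : G, g • y - y ∈ D.part k := fun g => by
    rw [hy, D.comm, ← smul_sub]
    refine D.u_smul_mem_part ?_
    rw [D.mem_tors, smul_sub, ← smul_nsmul_comm, hy₀, ha g trivial, sub_self]
  set v : D.part k := ⟨σ • y - y, hX σ⟩ with hv
  set A := D.moveHom σ k with hA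
  have hAA : ∀ x : D.part k, A x ∈ A.ker := fun x => by
    rw [AddMonoidHom.mem_ker]
    refine Subtype.ext ?_
    show σ • (σ • (x : J) - x) - (σ • (x : J) - x) = 0
    have hu : σ • σ • (x : J) = σ • (x : J) + σ • x - x :=
      eq_sub_of_add_eq (hT.unipotent σ hσ k x x.2.1)
    rw [smul_sub, hu]; abel
  -- `φ` on the part
  let F : D.part k →+ D.part k :=
    { toFun := fun x => ⟨φ • (x : J), D.g_smul_mem_part φ x.2⟩
      map_zero' := Subtype.ext (smul_zero _)
      map_add' := fun x z => Subtype.ext (smul_add _ _ _) }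
  have hpow : ∀ (x : D.part k) (i : ℕ), σ ^ i • (x : J) = x + i • (A x : J) := fun x i =>
    hT.pow_smul hσ x.2.1 i
  have hFA : ∀ x : D.part k, F (A x) = N • A (F x) := fun x => Subtype.ext (by
    show φ • (σ • (x : J) - x) = N • (σ • φ • (x : J) - φ • (x : J))
    rw [smul_sub, hconj x (Or.inr x.2.1)]
    have := hpow (F x) N
    show σ ^ N • φ • (x : J) - φ • (x : J) = _
    rw [show σ ^ N • φ • (x : J) = φ • (x : J) + N • (σ • φ • (x : J) - φ • (x : J)) from this]
    abel)
  let T : D.part k →+ D.part k :=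
    { toFun := fun x => ⟨t • (x : J), D.r_smul_mem_part t x.2⟩
      map_zero' := Subtype.ext (smul_zero _)
      map_add' := fun x z => Subtype.ext (smul_add _ _ _) }
  have hTA : ∀ x : D.part k, T (A x) = A (T x) := fun x => Subtype.ext (by
    show t • (σ • (x : J) - x) = σ • t • (x : J) - t • (x : J)
    rw [smul_sub, D.comm])
  have hTF : ∀ x : D.part k, T (F x) = F (T x) := fun x => Subtype.ext (D.comm φ t x).symm
  have hq : ∀ x : D.part k, F (F x) - T (F x) + N • x = 0 := fun x =>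
    Subtype.ext (hrel x x.2.1)
  -- `(N - 1) (φ² - 1)` maps into the fixed points
  have hkill : ∀ x : D.part k, (N - 1) • (F (F x) - x) ∈ A.ker := by
    intro x
    rw [AddMonoidHom.mem_ker]
    have e0 := hq (A x)
    have e1 : N • N • (A (F (F x)) - A (T (F x)) + N • A x) = 0 := by
      have := congrArg A (hq x)
      rw [map_add, map_sub, map_nsmul, map_zero] at this
      rw [this, smul_zero, smul_zero]
    have hFF : F (F (A x)) = N • N • A (F (F x)) := by
      rw [hFA, map_nsmul, hFA]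
    have hTFA : T (F (A x)) = N • A (T (F x)) := by
      rw [hFA, map_nsmul, hTA]
    rw [hFF, hTFA] at e0
    -- work with integers
    have key : ((N : ℤ) * N) • ((((N - 1 : ℕ) : ℤ)) • (A (F (F x)) - A x)) = 0 := by
      rw [Nat.cast_sub (by omega : 1 ≤ N), Nat.cast_one]
      simp only [← natCast_zsmul] at e0 e1
      linear_combination (norm := module) (N : ℤ) • e0 - e1
    obtain ⟨w, hw⟩ : ∃ w, w = (N - 1) • (A (F (F x)) - A x) := ⟨_, rfl⟩
    rw [natCast_zsmul, ← hw, ← Nat.cast_mul, natCast_zsmul] at key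
    rw [map_nsmul, map_sub, ← hw]
    have hwk : D.e ^ k • w = 0 := Subtype.ext w.2.1
    have hdvd := addOrderOf_dvd_of_nsmul_eq_zero key
    have hdvd' := addOrderOf_dvd_of_nsmul_eq_zero hwk
    have h1 := Nat.dvd_gcd hdvd hdvd'
    rw [((hNe.mul_left hNe).pow_right k).gcd_eq_one, Nat.dvd_one] at h1
    exact AddMonoid.addOrderOf_eq_one_iff.1 h1
  -- `(φ - N) v` is in the image
  have hvim : F v - N • v ∈ A.range := by
    refine ⟨N.choose 2 • v + N • ⟨φ • y - y, hX φ⟩, Subtype.ext ?_⟩
    have h1 : σ ^ N • (φ • y - y) = φ • y - y + N • (σ • (φ • y - y) - (φ • y - y)) :=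
      hpow ⟨φ • y - y, hX φ⟩ N
    have h2 : ∀ i : ℕ, σ ^ i • y = y + i • (σ • y - y) + (i.choose 2) • (A v : J) := by
      intro i
      induction i with
      | zero => simp
      | succ i ih =>
        rw [pow_succ', mul_smul, ih, smul_add, smul_add, smul_nsmul_comm, smul_nsmul_comm,
          Nat.choose_succ_succ, Nat.choose_one_right]
        have hAv : σ • (A v : J) = A v := sub_eq_zero.1 (congrArg Subtype.val (hAA v))
        have e1 : σ • (σ • y - y) = σ • y - y + (A v : J) := by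
          show σ • (σ • y - y) = σ • y - y + (σ • (σ • y - y) - (σ • y - y))
          abel
        rw [hAv, e1, succ_nsmul, add_nsmul, smul_add]
        abel
    have h3 : φ • σ • y = σ ^ N • (y + (φ • y - y)) := by
      rw [hconj y (Or.inl rfl), add_sub_cancel]
    rw [smul_add, h2, h1] at h3
    rw [map_add, map_nsmul, map_nsmul, AddSubgroup.coe_add, AddSubgroupClass.coe_nsmul,
      AddSubgroupClass.coe_nsmul]
    show N.choose 2 • (A v : J) + N • (σ • (φ • y - y) - (φ • y - y)) =
      φ • (σ • y - y) - N • (σ • y - y)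
    rw [smul_sub φ, h3]
    abel
  have hFrange : ∀ x ∈ A.range, F x ∈ A.range := by
    rintro _ ⟨x, rfl⟩
    exact ⟨N • F x, by rw [map_nsmul, hFA]⟩
  have hle : A.range ≤ A.ker := by rintro _ ⟨x, rfl⟩; exact hAA x
  have hbig : ((N - 1) * (N ^ 2 - 1)) • v ∈ A.ker := by
    have h1 : F (F v) - (N * N) • v ∈ A.range := by
      have e : F (F v) - (N * N) • v = F (F v - N • v) + N • (F v - N • v) := by
        rw [map_sub, map_nsmul, smul_sub, mul_smul]; abel
      rw [e]
      exact add_mem (hFrange _ hvim) (nsmul_mem hvim N)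
    have h2 := sub_mem (hkill v) (nsmul_mem (hle h1) (N - 1))
    rw [← smul_sub, show F (F v) - v - (F (F v) - (N * N) • v) = (N * N) • v - v by abel] at h2
    have h3 : (N * N) • v - v = (N ^ 2 - 1) • v := by
      rw [sub_eq_iff_eq_add, ← succ_nsmul]
      congr 1
      have : 1 ≤ N ^ 2 := Nat.one_le_pow _ _ (by omega)
      rw [sq] at this ⊢; omega
    rwa [h3, ← mul_smul] at h2
  have hidx : (C ^ 2).factorial • (((N - 1) * (N ^ 2 - 1)) • v) ∈ A.range := by
    set n := Nat.card (D.localPart H) with hn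
    have hn0 : 0 < n := Nat.card_pos
    have hker : Nat.card A.ker ≤ C * n ^ k :=
      (TameData.card_ker_le fun z hz τ hτ => (hgen τ hτ).imp fun i hi => hi z (Or.inr hz)).trans (hfixC k)
    have htot : n ^ k * n ^ k ≤ Nat.card A.range * Nat.card A.ker := by
      rw [hA, ← D.card_moveHom σ k, D.card_part k, ← mul_pow, ← sq]
      exact Nat.pow_le_pow_left hexact k
    have h1 : n ^ k ≤ Nat.card A.range * C := by
      refine Nat.le_of_mul_le_mul_right ?_ (pow_pos hn0 k)
      calc n ^ k * n ^ k ≤ Nat.card A.range * Nat.card A.ker := htot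
        _ ≤ Nat.card A.range * (C * n ^ k) := Nat.mul_le_mul_left _ hker
        _ = Nat.card A.range * C * n ^ k := by ring
    set q := (A.range.addSubgroupOf A.ker).index with hq
    have hq1 : q * Nat.card A.range = Nat.card A.ker := by
      rw [hq, ← Nat.card_congr (AddSubgroup.addSubgroupOfEquivOfLe hle).toEquiv]
      exact AddSubgroup.index_mul_card _
    have hq2 : q ≤ C ^ 2 := by
      refine Nat.le_of_mul_le_mul_right ?_ (Nat.card_pos (α := A.range))
      calc q * Nat.card A.range = Nat.card A.ker := hq1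
        _ ≤ C * n ^ k := hker
        _ ≤ C * (Nat.card A.range * C) := Nat.mul_le_mul_left _ h1
        _ = C ^ 2 * Nat.card A.range := by ring
    have hq0 : 0 < q := Nat.pos_of_ne_zero fun h => by
      rw [h, zero_mul] at hq1; exact Nat.card_pos.ne' hq1.symm
    obtain ⟨c, hc⟩ := Nat.dvd_factorial hq0 hq2
    have h2 := (A.range.addSubgroupOf A.ker).nsmul_index_mem ⟨_, hbig⟩
    rw [AddSubgroup.mem_addSubgroupOf, AddSubgroupClass.coe_nsmul, ← hq] at h2
    rw [hc, mul_comm, mul_smul]
    exact nsmul_mem h2 c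
  obtain ⟨x, hx⟩ := hidx
  have hx' : σ • (x : J) - x =
      ((C ^ 2).factorial * ((N - 1) * (N ^ 2 - 1))) • (σ • y - y) := by
    have := congrArg Subtype.val hx
    rwa [← mul_smul, AddSubgroupClass.coe_nsmul] at this
  refine ⟨((C ^ 2).factorial * ((N - 1) * (N ^ 2 - 1))) • y - x, ?_, ?_⟩
  · intro τ hτ
    have h4 : ∀ i : ℕ, σ ^ i •
        (((C ^ 2).factorial * ((N - 1) * (N ^ 2 - 1))) • y - (x : J)) =
        ((C ^ 2).factorial * ((N - 1) * (N ^ 2 - 1))) • y - x := by
      intro i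
      induction i with
      | zero => simp
      | succ i ih =>
        rw [pow_succ', mul_smul, ih, smul_sub, smul_nsmul_comm, ← sub_eq_zero]
        rw [smul_sub, ← sub_eq_zero] at hx'
        rw [← neg_eq_zero, ← hx']; abel
    obtain ⟨i, hi⟩ := hgen τ hτ
    rw [smul_sub, smul_nsmul_comm, hi y (Or.inl rfl), hi x (Or.inr x.2.1), ← smul_nsmul_comm,
      ← smul_sub, h4]
  · rw [smul_sub, smul_comm, hey, x.2.1, sub_zero, r_smul_nsmul]

/-- At a set consisting of one involution, twice every rational point is locally divisible. -/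
theorem isLocDiv_two_nsmul {H : Set G} {c : G} (hc : c * c = 1) (hH : ∀ g ∈ H, g = c) {a : J}
    (ha : a ∈ fixedBy' (Set.univ : Set G)) : D.IsLocDiv H (2 • a) := by
  intro k
  obtain ⟨y, hy⟩ := D.exists_nsmul_pow_eq k a
  refine ⟨D.u k • y + c • D.u k • y, fun g hg => ?_, ?_⟩
  · rw [hH g hg, smul_add, ← mul_smul c c, hc, one_smul, add_comm]
  · rw [smul_add, ← smul_nsmul_comm, ← r_smul_nsmul, hy, D.comm, ha c trivial, two_nsmul, smul_add]

/-- The descent: some `t ≡ 1` sends every rational point to torsion. -/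
theorem exists_torsion_eigen (hlines : L.HasLines (D.part 1))
    (hZ : ∀ σ ∈ L.Z, ∀ y : J, D.e • y ∈ fixedBy' (Set.univ : Set G) → σ • y = y)
    (hfg : (fixedBy' (Set.univ : Set G) : AddSubgroup J).FG) {N : ℕ} (hN : 2 ≤ N)
    (hNe : Nat.Coprime N D.e) (hT : D.TameData L.HN N) {c : G} (hc : c * c = 1)
    (hH : ∀ g ∈ L.Hinf, g = c)
    (hbal : ∀ k, Nat.card (D.part k) ≤ Nat.card (D.fix L.Hinf k) ^ 2) :
    ∃ t : R, D.ε t = 1 ∧ ∀ a ∈ (fixedBy' (Set.univ : Set G) : AddSubgroup J), IsOfFinAddOrder (t • a) := by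
  obtain ⟨hle, hfinal⟩ := D.localPart_mul_le L hlines hZ hfg
  have h1 := D.card_part_le_sq L.HN hT.card_part_le
  have h2 := D.card_part_le_sq L.Hinf hbal
  have hge : Nat.card (D.part 1) ≤ Nat.card (D.localPart L.HN) * Nat.card (D.localPart L.Hinf) := by
    refine Nat.mul_self_le_mul_self_iff.1 ?_
    calc Nat.card (D.part 1) * Nat.card (D.part 1)
        ≤ Nat.card (D.localPart L.HN) ^ 2 * Nat.card (D.localPart L.Hinf) ^ 2 :=
          Nat.mul_le_mul h1 h2
      _ = _ := by ring
  have hexact : Nat.card (D.localPart L.HN) ^ 2 ≤ Nat.card (D.part 1) := by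
    have hpos : 0 < Nat.card (D.part 1) := Nat.card_pos
    refine Nat.le_of_mul_le_mul_right ?_ hpos
    calc Nat.card (D.localPart L.HN) ^ 2 * Nat.card (D.part 1)
        ≤ Nat.card (D.localPart L.HN) ^ 2 * Nat.card (D.localPart L.Hinf) ^ 2 :=
          Nat.mul_le_mul_left _ h2
      _ = (Nat.card (D.localPart L.HN) * Nat.card (D.localPart L.Hinf)) ^ 2 := by ring
      _ ≤ Nat.card (D.part 1) ^ 2 := Nat.pow_le_pow_left hle 2
      _ = _ := sq _
  obtain ⟨B, hB, hBdiv⟩ := D.exists_multiple_isLocDiv hN hNe hT hexact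
  obtain ⟨t, ht, htors⟩ := hfinal hge
  refine ⟨t, ht, fun a ha => ?_⟩
  have hmem : (2 * B) • a ∈ D.selmer L :=
    ⟨nsmul_mem ha _, by
      intro k
      obtain ⟨y, hy, hya⟩ := hBdiv a ha k
      exact ⟨2 • y, nsmul_mem hy 2, by rw [smul_comm, hya, mul_smul, ← r_smul_nsmul]⟩,
      by rw [mul_smul]; exact D.isLocDiv_two_nsmul hc hH (nsmul_mem ha B)⟩
  have h := htors _ hmem
  rw [r_smul_nsmul, isOfFinAddOrder_iff_nsmul_eq_zero] at h
  obtain ⟨n, hn, hn0⟩ := h
  exact isOfFinAddOrder_iff_nsmul_eq_zero.2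
    ⟨n * (2 * B), Nat.mul_pos hn (by omega), by rw [mul_smul, hn0]⟩

end DescentCtx

end Fermat.Agent.Mazur
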