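import Fermat.Agent.Mazur.Descent.Triples

/-!
# The abstract Eisenstein descent

`selmer` is the group of rational points whose Eisenstein projection is divisible by every
power of `e` over both local sets.  Counting triples against local corrections shows first that
the two local subspaces are small, and, when they are as large as allowed, that some
`t ≡ 1` modulo the Eisenstein ideal sends every such point to torsion.
-/

set_option autoImplicit false

open scoped Classical

namespace Fermat.Agent.Mazur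

namespace DescentCtx

variable {G : Type*} [Group G] {J : Type*} [AddCommGroup J] [DistribMulAction G J]
  {R : Type*} [CommRing R] [Module R J] (D : DescentCtx G J R) (L : LocalData G D.e)

/-- `a` is fixed by `G` and its Eisenstein projections are divisible by all powers of `e` among
the fixed points of `H`. -/
def IsLocDiv (H : Set G) (a : J) : Prop :=
  ∀ k : ℕ, ∃ y ∈ fixedBy' H, D.e ^ k • y = D.u k • a

/-- Rational points which are locally divisible on both local sets. -/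
def selmer : AddSubgroup J where
  carrier := {a | a ∈ fixedBy' (Set.univ : Set G) ∧ D.IsLocDiv L.HN a ∧ D.IsLocDiv L.Hinf a}
  zero_mem' := ⟨zero_mem _, fun k => ⟨0, zero_mem _, by rw [smul_zero, smul_zero]⟩,
    fun k => ⟨0, zero_mem _, by rw [smul_zero, smul_zero]⟩⟩
  add_mem' {a b} ha hb := by
    refine ⟨add_mem ha.1 hb.1, fun k => ?_, fun k => ?_⟩
    · obtain ⟨y, hy, hya⟩ := ha.2.1 k
      obtain ⟨z, hz, hzb⟩ := hb.2.1 k
      exact ⟨y + z, add_mem hy hz, by rw [smul_add, hya, hzb, smul_add]⟩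
    · obtain ⟨y, hy, hya⟩ := ha.2.2 k
      obtain ⟨z, hz, hzb⟩ := hb.2.2 k
      exact ⟨y + z, add_mem hy hz, by rw [smul_add, hya, hzb, smul_add]⟩
  neg_mem' {a} ha := by
    refine ⟨neg_mem ha.1, fun k => ?_, fun k => ?_⟩
    · obtain ⟨y, hy, hya⟩ := ha.2.1 k
      exact ⟨-y, neg_mem hy, by rw [smul_neg, hya, smul_neg]⟩
    · obtain ⟨y, hy, hya⟩ := ha.2.2 k
      exact ⟨-y, neg_mem hy, by rw [smul_neg, hya, smul_neg]⟩

lemma fixed_univ_le (H : Set G) {x : J} (hx : x ∈ fixedBy' (Set.univ : Set G)) :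
    x ∈ fixedBy' H := fun g _ => hx g trivial

lemma smul_mem_selmer (r : R) {a : J} (ha : a ∈ D.selmer L) : r • a ∈ D.selmer L := by
  refine ⟨D.fixed_smul _ r ha.1, fun k => ?_, fun k => ?_⟩
  · obtain ⟨y, hy, hya⟩ := ha.2.1 k
    exact ⟨r • y, D.fixed_smul _ r hy, by rw [← r_smul_nsmul, hya, smul_comm]⟩
  · obtain ⟨y, hy, hya⟩ := ha.2.2 k
    exact ⟨r • y, D.fixed_smul _ r hy, by rw [← r_smul_nsmul, hya, smul_comm]⟩

/-- A point of `M` in the stable layer is locally divisible. -/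
lemma isLocDiv_of_mem_localPart {H : Set G} {m : J} (hm : m ∈ D.localPart H) :
    D.IsLocDiv H m := by
  obtain ⟨⟨ht, hu⟩, hs⟩ := hm
  intro k
  rcases k with _ | k
  · obtain ⟨-, y, hy, hy0⟩ := (AddSubgroup.mem_iInf.1 hs) 0
    rw [pow_zero, one_smul] at hy0
    exact ⟨D.u 0 • y, D.fixed_smul _ _ hy, by rw [pow_zero, one_smul, hy0]⟩
  · obtain ⟨-, y, hy, hym⟩ := (AddSubgroup.mem_iInf.1 hs) (k + 1)
    exact ⟨y, hy, by rw [hym, D.u_eq (Nat.le_add_left 1 k) ht, hu]⟩

/-- Local divisibility passes through the connecting construction. -/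
lemma isLocDiv_correct {H : Set G} {k : ℕ}
    (hk : ∀ i, k ≤ i + 1 → D.layer H i = D.stableLayer H) (hk1 : 1 ≤ k) {d z : J}
    (hd : D.IsLocDiv H d) (hzfix : z ∈ fixedBy' H)
    (hez : D.e • z = D.u k • D.u k • d)
    (hzk : ∃ y ∈ fixedBy' H, D.e ^ (k - 1) • y = z) : D.IsLocDiv H z := by
  intro j
  obtain ⟨w, hw, hwz⟩ := hzk
  rcases le_total j (k - 1) with hj | hj
  · refine ⟨D.u j • D.e ^ (k - 1 - j) • w, D.fixed_smul _ _ (nsmul_mem hw _), ?_⟩
    rw [← r_smul_nsmul, ← mul_smul (D.e ^ j), ← pow_add, Nat.add_sub_cancel' hj, hwz]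
  obtain ⟨Y, hY, hYd⟩ := hd (j + 1)
  obtain ⟨φ, hφ, hφG, -⟩ := D.exists_div j (D.u (j + 1) - D.u j) fun x hx => by
    rw [sub_smul, D.u_eq j.le_succ hx, sub_self]
  set v := D.e ^ j • D.u k • D.u k • Y with hv
  have hvfix : D.u k • D.u k • Y ∈ fixedBy' H := D.fixed_smul _ _ (D.fixed_smul _ _ hY)
  have hφz : φ z ∈ fixedBy' H := fun g hg => by rw [hφG, hzfix g hg]
  set δ := D.u j • z - v + D.e ^ j • φ z with hδ
  have hev : D.e • v = D.u (j + 1) • D.e • z := by
    rw [hez, hv, ← mul_smul, ← pow_succ', ← r_smul_nsmul, ← r_smul_nsmul, hYd,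
      smul_comm (D.u (j + 1)) (D.u k), smul_comm (D.u (j + 1)) (D.u k)]
  have hδt : δ ∈ D.tors 1 := by
    rw [D.mem_tors, pow_one, hδ, smul_add, smul_sub, hev, ← hφ, sub_smul, smul_sub,
      ← r_smul_nsmul, ← r_smul_nsmul]
    abel
  have hδlayer : δ ∈ D.layer H (k - 1) := by
    refine ⟨hδt, D.u j • w - D.e ^ (j - (k - 1)) • D.u k • D.u k • Y +
      D.e ^ (j - (k - 1)) • φ z, add_mem (sub_mem (D.fixed_smul _ _ hw) (nsmul_mem hvfix _))
      (nsmul_mem hφz _), ?_⟩
    have e1 : ∀ x : J, D.e ^ (k - 1) • D.e ^ (j - (k - 1)) • x = D.e ^ j • x := fun x => by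
      rw [← mul_smul, ← pow_add, Nat.add_sub_cancel' hj]
    rw [smul_add, smul_sub, ← r_smul_nsmul, hwz, e1, e1]
  rw [hk (k - 1) (by omega), ← hk j (by omega)] at hδlayer
  obtain ⟨-, q, hq, hqδ⟩ := hδlayer
  refine ⟨q + D.u k • D.u k • Y - φ z, sub_mem (add_mem hq hvfix) hφz, ?_⟩
  rw [smul_sub, smul_add, hqδ, ← hv, hδ]
  abel

/-- The points of `selmer` whose twofold projection is `e` times such a point. -/
def eisKer (k : ℕ) : AddSubgroup J :=
  (((D.selmer L).map (DistribSMul.toAddMonoidHom J D.e)).comap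
    (DistribSMul.toAddMonoidHom J (D.u k * D.u k))) ⊓ D.selmer L

lemma mem_eisKer {k : ℕ} {a : J} :
    a ∈ D.eisKer L k ↔ (∃ z ∈ D.selmer L, D.e • z = D.u k • D.u k • a) ∧ a ∈ D.selmer L := by
  show (∃ z ∈ D.selmer L, D.e • z = (D.u k * D.u k) • a) ∧ _ ↔ _
  rw [mul_smul]
  rfl

/-- Torsion points in `selmer`. -/
def selmerTors : AddSubgroup J where
  carrier := {a | a ∈ D.selmer L ∧ ∃ i : ℕ, D.e ^ i • a = 0}
  zero_mem' := ⟨zero_mem _, 0, smul_zero _⟩
  add_mem' {a b} ha hb := by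
    obtain ⟨i, hi⟩ := ha.2
    obtain ⟨j, hj⟩ := hb.2
    refine ⟨add_mem ha.1 hb.1, i + j, ?_⟩
    rw [smul_add]
    conv_lhs => arg 1; rw [add_comm, pow_add, mul_smul, hi, smul_zero]
    rw [zero_add, pow_add, mul_smul, hj, smul_zero]
  neg_mem' {a} ha := by
    obtain ⟨i, hi⟩ := ha.2
    exact ⟨neg_mem ha.1, i, by rw [smul_neg, hi, neg_zero]⟩

/-- The Eisenstein part `u_k` of the torsion of `selmer`. -/
def selmerPart (k : ℕ) : AddSubgroup J := D.selmerTors L ⊓ D.part k

/-- The triples and coboundary bound, before the size of the local parts is known. -/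
lemma card_classes_le (hlines : L.HasLines (D.part 1))
    (hZ : ∀ σ ∈ L.Z, ∀ y : J, D.e • y ∈ fixedBy' (Set.univ : Set G) → σ • y = y)
    {k : ℕ} (hk1 : 1 ≤ k) (hkN : ∀ i, k ≤ i + 1 → D.layer L.HN i = D.stableLayer L.HN)
    (hkI : ∀ i, k ≤ i + 1 → D.layer L.Hinf i = D.stableLayer L.Hinf) :
    Finite ((D.selmer L) ⧸ (D.eisKer L k).addSubgroupOf (D.selmer L)) ∧
    Nat.card ((D.selmer L) ⧸ (D.eisKer L k).addSubgroupOf (D.selmer L)) *
        (Nat.card (D.part 1) * Nat.card (D.localPart L.HN) * Nat.card (D.localPart L.Hinf)) ≤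
      Nat.card (D.part 1) ^ 2 *
        Nat.card (fixedBy' (Set.univ : Set G) ⊓ D.localPart L.HN ⊓ D.localPart L.Hinf :
          AddSubgroup J) := by
  have : Fact D.e.Prime := ⟨D.prime⟩
  have hM : ∀ (σ : G), ∀ x ∈ D.part 1, σ • x ∈ D.part 1 := fun σ x hx => D.g_smul_mem_part σ hx
  obtain ⟨hfinT, hcardT⟩ := L.triples_bound (D.part 1) hM hlines
  -- choices of division points
  have hu1 : ∀ {x : J}, x ∈ D.tors 1 → D.u k • x ∈ D.part 1 := fun {x} hx => by
    rw [D.u_eq hk1 hx]; exact D.u_smul_mem_part hx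
  choose y₀ hy₀ using D.divisible
  let y : J → J := fun a => D.u k • D.u k • y₀ a
  have hey : ∀ a, D.e • y a = D.u k • D.u k • a := fun a => by
    show D.e • D.u k • D.u k • y₀ a = _
    rw [← r_smul_nsmul, ← r_smul_nsmul, hy₀]
  have hlocw : ∀ (H : Set G) (a : J), D.IsLocDiv H a →
      ∃ m ∈ D.part 1, ∃ q ∈ fixedBy' H, y a + m = D.e ^ (k - 1) • q := by
    intro H a ha
    obtain ⟨q, hq, hqa⟩ := ha k
    refine ⟨D.u k • (D.e ^ (k - 1) • q - D.u k • y₀ a), hu1 ?_, D.u k • q,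
      D.fixed_smul _ _ hq, ?_⟩
    · rw [D.mem_tors, pow_one, smul_sub, ← mul_smul, ← pow_succ', Nat.sub_add_cancel hk1, hqa,
        ← r_smul_nsmul, hy₀, sub_self]
    · show D.u k • D.u k • y₀ a + D.u k • (D.e ^ (k - 1) • q - D.u k • y₀ a) = _
      rw [← smul_add, add_sub_cancel, r_smul_nsmul]
  let cl : D.selmer L → L.triples (D.part 1) := fun a =>
    ⟨(fun σ => σ • y a - y a, (hlocw L.HN a a.2.2.1).choose,
      (hlocw L.Hinf a a.2.2.2).choose), by
      refine ⟨fun σ => ?_, (hlocw L.HN a a.2.2.1).choose_spec.1,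
        (hlocw L.Hinf a a.2.2.2).choose_spec.1, fun σ τ => ?_, fun σ hσ => ?_,
        fun σ hσ => ?_, fun σ hσ => ?_⟩
      · show σ • D.u k • D.u k • y₀ a - D.u k • D.u k • y₀ a ∈ D.part 1
        rw [D.comm, D.comm, ← smul_sub, ← smul_sub]
        refine hu1 (D.smul_mem_tors _ ?_)
        rw [D.mem_tors, pow_one, smul_sub, ← smul_nsmul_comm, hy₀, a.2.1 σ trivial, sub_self]
      · show (σ * τ) • y a - y a = σ • y a - y a + σ • (τ • y a - y a)
        rw [smul_sub, mul_smul]; abel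
      · show σ • y a - y a = 0
        rw [hZ σ hσ _ (by rw [hey]; exact D.fixed_smul _ _ (D.fixed_smul _ _ a.2.1)), sub_self]
      · obtain ⟨-, q, hq, hm⟩ := (hlocw L.HN a a.2.2.1).choose_spec
        show σ • y a - y a + σ • (hlocw L.HN a a.2.2.1).choose -
          (hlocw L.HN a a.2.2.1).choose = 0
        have := nsmul_mem hq (D.e ^ (k - 1)) σ hσ
        rw [← hm, smul_add] at this
        rw [sub_add_eq_add_sub, this]; abel
      · obtain ⟨-, q, hq, hm⟩ := (hlocw L.Hinf a a.2.2.2).choose_spec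
        show σ • y a - y a + σ • (hlocw L.Hinf a a.2.2.2).choose -
          (hlocw L.Hinf a a.2.2.2).choose = 0
        have := nsmul_mem hq (D.e ^ (k - 1)) σ hσ
        rw [← hm, smul_add] at this
        rw [sub_add_eq_add_sub, this]; abel⟩
  -- coboundaries
  let θ : D.part 1 × D.localPart L.HN × D.localPart L.Hinf →+ L.triples (D.part 1) :=
    { toFun := fun p =>
        ⟨(fun σ => σ • (p.1 : J) - p.1, (p.2.1 : J) - p.1, (p.2.2 : J) - p.1), by
          obtain ⟨⟨m, hm⟩, ⟨a, ha⟩, ⟨b, hb⟩⟩ := p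
          obtain ⟨-, ya, hya, hya0⟩ := (AddSubgroup.mem_iInf.1 ha.2) 0
          obtain ⟨-, yb, hyb, hyb0⟩ := (AddSubgroup.mem_iInf.1 hb.2) 0
          rw [pow_zero, one_smul] at hya0 hyb0
          subst hya0 hyb0
          refine ⟨fun σ => sub_mem (hM σ m hm) hm, sub_mem ha.1 hm, sub_mem hb.1 hm,
            fun σ τ => ?_, fun σ hσ => ?_, fun σ hσ => ?_, fun σ hσ => ?_⟩
          · show (σ * τ) • m - m = σ • m - m + σ • (τ • m - m)
            rw [smul_sub, mul_smul]; abel
          · show σ • m - m = 0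
            have h0 : D.e • m = 0 := by simpa [pow_one] using D.mem_tors.1 hm.1
            rw [hZ σ hσ m (by rw [h0]; exact zero_mem _), sub_self]
          · show σ • m - m + σ • (ya - m) - (ya - m) = 0
            rw [smul_sub, hya σ hσ]; abel
          · show σ • m - m + σ • (yb - m) - (yb - m) = 0
            rw [smul_sub, hyb σ hσ]; abel⟩
      map_zero' := Subtype.ext (Prod.ext (funext fun σ => by simp) (Prod.ext (by simp) (by simp)))
      map_add' := fun p q => Subtype.ext (Prod.ext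
        (funext fun σ => by
          show σ • ((p.1 : J) + q.1) - ((p.1 : J) + q.1) = σ • (p.1 : J) - p.1 + (σ • (q.1 : J) - q.1)
          rw [smul_add]; abel)
        (Prod.ext
          (by show (p.2.1 : J) + q.2.1 - ((p.1 : J) + q.1) = (p.2.1 : J) - p.1 + ((q.2.1 : J) - q.1)
              abel)
          (by show (p.2.2 : J) + q.2.2 - ((p.1 : J) + q.1) = (p.2.2 : J) - p.1 + ((q.2.2 : J) - q.1)
              abel))) }
  set B := θ.range with hB
  -- equal classes differ by an element of `eisKer`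
  have hinj : ∀ a a' : D.selmer L, cl a - cl a' ∈ B → (a : J) - a' ∈ D.eisKer L k := by
    rintro a a' ⟨p, hp⟩
    have h1 : ∀ σ : G, σ • (p.1 : J) - p.1 = σ • y a - y a - (σ • y a' - y a') := fun σ =>
      congrFun (congrArg (fun t => t.1.1) hp) σ
    have h2 : (p.2.1 : J) - p.1 =
        (hlocw L.HN a a.2.2.1).choose - (hlocw L.HN a' a'.2.2.1).choose :=
      congrArg (fun t => t.1.2.1) hp
    have h3 : (p.2.2 : J) - p.1 =
        (hlocw L.Hinf a a.2.2.2).choose - (hlocw L.Hinf a' a'.2.2.2).choose :=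
      congrArg (fun t => t.1.2.2) hp
    set z := y a - y a' - (p.1 : J) with hz
    have hzfix : z ∈ fixedBy' (Set.univ : Set G) := fun σ _ => by
      have e1 := h1 σ
      rw [hz, smul_sub, smul_sub, ← sub_eq_zero]
      rw [← sub_eq_zero] at e1
      rw [← neg_eq_zero, ← e1]; abel
    have hez : D.e • z = D.u k • D.u k • ((a : J) - a') := by
      have h0 : D.e • (p.1 : J) = 0 := by simpa [pow_one] using D.mem_tors.1 p.1.2.1
      rw [hz, smul_sub, smul_sub, h0, sub_zero, hey, hey, ← smul_sub, ← smul_sub]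
    have hloc : ∀ (H : Set G), (∀ i, k ≤ i + 1 → D.layer H i = D.stableLayer H) →
        ∀ (μ : D.localPart H) (ha : D.IsLocDiv H a) (ha' : D.IsLocDiv H a'),
          (μ : J) - p.1 = (hlocw H a ha).choose - (hlocw H a' ha').choose →
          D.IsLocDiv H z := by
      intro H hkH μ ha ha' hμ
      obtain ⟨-, q, hq, hqm⟩ := (hlocw H a ha).choose_spec
      obtain ⟨-, q', hq', hqm'⟩ := (hlocw H a' ha').choose_spec
      obtain ⟨-, r, hr, hrμ⟩ := (AddSubgroup.mem_iInf.1 μ.2.2) (k - 1)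
      refine D.isLocDiv_correct hkH hk1 (d := (a : J) - a') ?_ (fixed_univ_le H hzfix) hez
        ⟨q - q' - r, sub_mem (sub_mem hq hq') hr, ?_⟩
      · intro j
        obtain ⟨t, ht, hta⟩ := ha j
        obtain ⟨t', ht', hta'⟩ := ha' j
        exact ⟨t - t', sub_mem ht ht', by rw [smul_sub, hta, hta', smul_sub]⟩
      · rw [smul_sub, smul_sub, ← hqm, ← hqm', hrμ, hz, ← sub_eq_zero]
        rw [← sub_eq_zero] at hμ
        rw [← neg_eq_zero, ← hμ]; abel
    exact (D.mem_eisKer L).2 ⟨⟨z, ⟨hzfix, hloc L.HN hkN p.2.1 a.2.2.1 a'.2.2.1 h2,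
      hloc L.Hinf hkI p.2.2 a.2.2.2 a'.2.2.2 h3⟩, hez⟩, sub_mem a.2 a'.2⟩
  let F : (D.selmer L) ⧸ (D.eisKer L k).addSubgroupOf (D.selmer L) → L.triples (D.part 1) ⧸ B :=
    fun c => QuotientAddGroup.mk (cl c.out)
  have hFinj : Function.Injective F := fun c c' h => by
    have hmem : cl c.out - cl c'.out ∈ B := (QuotientAddGroup.eq_iff_sub_mem).1 h
    have := hinj _ _ hmem
    rw [← QuotientAddGroup.out_eq' c, ← QuotientAddGroup.out_eq' c', QuotientAddGroup.eq_iff_sub_mem,
      AddSubgroup.mem_addSubgroupOf, AddSubgroupClass.coe_sub]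
    exact this
  refine ⟨Finite.of_injective F hFinj, ?_⟩
  -- the kernel of `θ`
  have hker : Nat.card θ.ker ≤ Nat.card (fixedBy' (Set.univ : Set G) ⊓ D.localPart L.HN ⊓
      D.localPart L.Hinf : AddSubgroup J) := by
    have hh : ∀ p : θ.ker, (∀ σ : G, σ • (p.1.1 : J) = p.1.1) ∧ (p.1.2.1 : J) = p.1.1 ∧
        (p.1.2.2 : J) = p.1.1 := fun p => by
      have e1 := congrArg (fun t => t.1) (AddMonoidHom.mem_ker.1 p.2)
      exact ⟨fun σ => sub_eq_zero.1 (congrFun (congrArg Prod.fst e1) σ),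
        sub_eq_zero.1 (congrArg (fun t => t.2.1) e1), sub_eq_zero.1 (congrArg (fun t => t.2.2) e1)⟩
    have : Finite (fixedBy' (Set.univ : Set G) ⊓ D.localPart L.HN ⊓
        D.localPart L.Hinf : AddSubgroup J) :=
      Finite.of_injective (fun x => (⟨x.1, x.2.2⟩ : D.localPart L.Hinf))
        fun _ _ h => Subtype.ext (Subtype.mk.inj h)
    refine Nat.card_le_card_of_injective (fun p => (⟨p.1.1, ?_⟩ :
      (fixedBy' (Set.univ : Set G) ⊓ D.localPart L.HN ⊓ D.localPart L.Hinf : AddSubgroup J))) ?_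
    · exact ⟨⟨fun σ _ => (hh p).1 σ, (hh p).2.1 ▸ p.1.2.1.2⟩, (hh p).2.2 ▸ p.1.2.2.2⟩
    · intro p q h
      have h0 : (p.1.1 : J) = q.1.1 := Subtype.mk.inj h
      exact Subtype.ext (Prod.ext (Subtype.ext h0) (Prod.ext
        (Subtype.ext ((hh p).2.1.trans (h0.trans (hh q).2.1.symm)))
        (Subtype.ext ((hh p).2.2.trans (h0.trans (hh q).2.2.symm)))))
  have hq : Nat.card ((D.selmer L) ⧸ (D.eisKer L k).addSubgroupOf (D.selmer L)) * Nat.card B ≤
      Nat.card (D.part 1) ^ 2 := by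
    refine (Nat.mul_le_mul_right _ (Nat.card_le_card_of_injective F hFinj)).trans ?_
    rw [← AddSubgroup.card_eq_card_quotient_mul_card_addSubgroup]
    exact hcardT
  have hθ : Nat.card B * Nat.card θ.ker =
      Nat.card (D.part 1) * Nat.card (D.localPart L.HN) * Nat.card (D.localPart L.Hinf) := by
    rw [hB, ← Nat.card_congr (QuotientAddGroup.quotientKerEquivRange θ).toEquiv,
      ← AddSubgroup.card_eq_card_quotient_mul_card_addSubgroup, Nat.card_prod, Nat.card_prod,
      mul_assoc]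
  rw [← hθ, ← mul_assoc]
  exact Nat.mul_le_mul hq hker

lemma selmerTors_exp (hfg : (fixedBy' (Set.univ : Set G) : AddSubgroup J).FG) :
    ∃ i : ℕ, ∀ a ∈ D.selmerTors L, D.e ^ i • a = 0 := by
  have : AddGroup.FG (fixedBy' (Set.univ : Set G) : AddSubgroup J) :=
    (AddGroup.fg_iff_addSubgroup_fg _).2 hfg
  have hT : Module.Finite ℤ (fixedBy' (Set.univ : Set G) : AddSubgroup J) :=
    Module.Finite.iff_addGroup_fg.2 inferInstance
  have : IsNoetherian ℤ (fixedBy' (Set.univ : Set G) : AddSubgroup J) := inferInstance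
  let T : Submodule ℤ (fixedBy' (Set.univ : Set G) : AddSubgroup J) :=
    ((D.selmerTors L).comap (AddSubgroup.subtype _)).toIntSubmodule
  obtain ⟨S, hS⟩ := IsNoetherian.noetherian T
  have hmem : ∀ s ∈ S, ∃ i, D.e ^ i • (s : J) = 0 := fun s hs =>
    ((hS ▸ Submodule.subset_span hs : s ∈ T) : (s : J) ∈ D.selmerTors L).2
  choose! i hi using hmem
  refine ⟨∑ s ∈ S, i s, fun a ha => ?_⟩
  have haT : (⟨a, ha.1.1⟩ : (fixedBy' (Set.univ : Set G) : AddSubgroup J)) ∈ T := ha
  rw [← hS] at haT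
  suffices ∀ x ∈ Submodule.span ℤ (S : Set (fixedBy' (Set.univ : Set G) : AddSubgroup J)),
      D.e ^ (∑ s ∈ S, i s) • (x : J) = 0 from this _ haT
  intro x hx
  induction hx using Submodule.span_induction with
  | mem s hs =>
    rw [← Finset.sum_erase_add _ _ hs, pow_add, mul_smul, hi s hs, smul_zero]
  | zero => simp
  | add x y _ _ hx hy => rw [AddMemClass.coe_add, smul_add, hx, hy, add_zero]
  | smul c x _ hx => rw [AddSubgroupClass.coe_zsmul, smul_comm, hx, smul_zero]

lemma tors_quot_ge {k : ℕ} (hk1 : 1 ≤ k) (hexp : ∀ a ∈ D.selmerTors L, D.e ^ k • a = 0) :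
    Nat.card (fixedBy' (Set.univ : Set G) ⊓ D.localPart L.HN ⊓ D.localPart L.Hinf :
        AddSubgroup J) ≤
      Nat.card ((D.selmerTors L) ⧸ (D.eisKer L k).addSubgroupOf (D.selmerTors L)) := by
  have hTt : ∀ a : D.selmerTors L, (a : J) ∈ D.tors k := fun a => hexp a a.2
  have : Finite (D.selmerTors L) :=
    Finite.of_injective (fun a => (⟨a.1, hTt a⟩ : D.tors k)) fun _ _ h =>
      Subtype.ext (Subtype.mk.inj h)
  set P := D.selmerPart L k
  have : Finite P := Finite.of_injective (fun a => (⟨a.1, a.2.1⟩ : D.selmerTors L))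
      fun _ _ h => Subtype.ext (Subtype.mk.inj h)
  let π : D.selmerTors L →+ P :=
    { toFun := fun a => ⟨D.u k • (a : J), ⟨D.smul_mem_selmer L _ a.2.1, k, by
        rw [← r_smul_nsmul, hTt a, smul_zero]⟩, D.u_smul_mem_part (hTt a)⟩
      map_zero' := Subtype.ext (smul_zero _)
      map_add' := fun a b => Subtype.ext (smul_add _ _ _) }
  have hπsurj : Function.Surjective π := fun x => ⟨⟨x.1, x.2.1⟩, Subtype.ext x.2.2.2⟩
  let m : P →+ P := DistribSMul.toAddMonoidHom P D.e
  let ψ : D.selmerTors L →+ P ⧸ m.range := (QuotientAddGroup.mk' _).comp π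
  have hψsurj : Function.Surjective ψ := (QuotientAddGroup.mk'_surjective _).comp hπsurj
  have hψker : (D.eisKer L k).addSubgroupOf (D.selmerTors L) ≤ ψ.ker := by
    intro a ha
    rw [AddSubgroup.mem_addSubgroupOf] at ha
    obtain ⟨⟨z, hz, hez⟩, -⟩ := (D.mem_eisKer L).1 ha
    have hzT : z ∈ D.selmerTors L := ⟨hz, k + 1, by
      rw [pow_succ, mul_smul, hez, ← r_smul_nsmul, ← r_smul_nsmul, hTt a, smul_zero, smul_zero]⟩
    rw [AddMonoidHom.mem_ker]
    show (QuotientAddGroup.mk (π a) : P ⧸ m.range) = 0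
    rw [QuotientAddGroup.eq_zero_iff]
    refine ⟨π ⟨z, hzT⟩, Subtype.ext ?_⟩
    show D.e • D.u k • z = D.u k • (a : J)
    rw [← r_smul_nsmul, hez, D.u_idem (D.smul_mem_tors _ (hTt a)), D.u_idem (hTt a)]
  have hge : Nat.card (P ⧸ m.range) ≤
      Nat.card ((D.selmerTors L) ⧸ (D.eisKer L k).addSubgroupOf (D.selmerTors L)) :=
    Nat.card_le_card_of_surjective (QuotientAddGroup.lift _ ψ hψker) fun q => by
      obtain ⟨a, ha⟩ := hψsurj q
      exact ⟨QuotientAddGroup.mk a, ha⟩
  have hrn : Nat.card (P ⧸ m.range) = Nat.card m.ker := by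
    have h1 := AddSubgroup.card_eq_card_quotient_mul_card_addSubgroup m.range
    have h2 := AddSubgroup.card_eq_card_quotient_mul_card_addSubgroup m.ker
    rw [Nat.card_congr (QuotientAddGroup.quotientKerEquivRange m).toEquiv, mul_comm] at h2
    exact Nat.eq_of_mul_eq_mul_right Nat.card_pos (h1.symm.trans h2)
  refine le_trans ?_ (hrn ▸ hge)
  have hmem : ∀ x : (fixedBy' (Set.univ : Set G) ⊓ D.localPart L.HN ⊓ D.localPart L.Hinf :
      AddSubgroup J), (x : J) ∈ P ∧ D.e • (x : J) = 0 := fun x => by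
    obtain ⟨⟨hx0, hxN⟩, hxI⟩ := x.2
    have he : D.e • (x : J) = 0 := by simpa [pow_one] using D.mem_tors.1 hxN.1.1
    exact ⟨⟨⟨⟨hx0, D.isLocDiv_of_mem_localPart hxN, D.isLocDiv_of_mem_localPart hxI⟩, 1,
      hxN.1.1⟩, D.tors_mono hk1 hxN.1.1, by rw [D.u_eq hk1 hxN.1.1, hxN.1.2]⟩, he⟩
  exact Nat.card_le_card_of_injective (fun x => (⟨⟨x.1, (hmem x).1⟩, Subtype.ext (hmem x).2⟩ : m.ker))
    fun x y h => Subtype.ext (congrArg (fun t : m.ker => (t.1 : J)) h)

/-- The local parts are small. -/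
theorem localPart_mul_le (hlines : L.HasLines (D.part 1))
    (hZ : ∀ σ ∈ L.Z, ∀ y : J, D.e • y ∈ fixedBy' (Set.univ : Set G) → σ • y = y)
    (hfg : (fixedBy' (Set.univ : Set G) : AddSubgroup J).FG) :
    Nat.card (D.localPart L.HN) * Nat.card (D.localPart L.Hinf) ≤ Nat.card (D.part 1) ∧
    (Nat.card (D.part 1) ≤ Nat.card (D.localPart L.HN) * Nat.card (D.localPart L.Hinf) →
      ∃ t : R, D.ε t = 1 ∧ ∀ a ∈ D.selmer L, IsOfFinAddOrder (t • a)) := by
  obtain ⟨k₁, hk₁⟩ := D.exists_layer_stable L.HN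
  obtain ⟨k₂, hk₂⟩ := D.exists_layer_stable L.Hinf
  obtain ⟨i, hi⟩ := D.selmerTors_exp L hfg
  set k := k₁ + k₂ + i + 1 with hkdef
  have hkN : ∀ j, k ≤ j + 1 → D.layer L.HN j = D.stableLayer L.HN := fun j hj =>
    D.stableLayer_eq hk₁ (by omega)
  have hkI : ∀ j, k ≤ j + 1 → D.layer L.Hinf j = D.stableLayer L.Hinf := fun j hj =>
    D.stableLayer_eq hk₂ (by omega)
  have hexp : ∀ a ∈ D.selmerTors L, D.e ^ k • a = 0 := fun a ha => by
    rw [show k = (k₁ + k₂ + 1) + i by omega, pow_add, mul_smul, hi a ha, smul_zero]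
  obtain ⟨hfinQ, hQ⟩ := D.card_classes_le L hlines hZ (by omega) hkN hkI
  have hT := D.tors_quot_ge L (show 1 ≤ k by omega) hexp
  have hTle : D.selmerTors L ≤ D.selmer L := fun a ha => ha.1
  set Q := (D.selmer L) ⧸ (D.eisKer L k).addSubgroupOf (D.selmer L) with hQdef
  let ι : (D.selmerTors L) ⧸ (D.eisKer L k).addSubgroupOf (D.selmerTors L) →+ Q :=
    QuotientAddGroup.map _ _ (AddSubgroup.inclusion hTle) fun a ha => ha
  have hι : Function.Injective ι := by
    rw [injective_iff_map_eq_zero]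
    intro c hc
    obtain ⟨a, rfl⟩ := QuotientAddGroup.mk_surjective c
    exact (QuotientAddGroup.eq_zero_iff a).2 ((QuotientAddGroup.eq_zero_iff
      (AddSubgroup.inclusion hTle a)).1 hc)
  have hc1 : Nat.card ((D.selmerTors L) ⧸ (D.eisKer L k).addSubgroupOf (D.selmerTors L)) ≤
      Nat.card Q := Nat.card_le_card_of_injective ι hι
  set h0 := Nat.card (fixedBy' (Set.univ : Set G) ⊓ D.localPart L.HN ⊓ D.localPart L.Hinf :
    AddSubgroup J)
  have hM0 : 0 < Nat.card (D.part 1) := Nat.card_pos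
  have : Nonempty Q := ⟨0⟩
  have hQ0 : 0 < Nat.card Q := Nat.card_pos
  have hQle : Nat.card Q * (Nat.card (D.localPart L.HN) * Nat.card (D.localPart L.Hinf)) ≤
      Nat.card (D.part 1) * h0 := by
    refine Nat.le_of_mul_le_mul_left ?_ hM0
    calc Nat.card (D.part 1) *
          (Nat.card Q * (Nat.card (D.localPart L.HN) * Nat.card (D.localPart L.Hinf)))
        = Nat.card Q * (Nat.card (D.part 1) * Nat.card (D.localPart L.HN) *
            Nat.card (D.localPart L.Hinf)) := by ring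
      _ ≤ Nat.card (D.part 1) ^ 2 * h0 := hQ
      _ = Nat.card (D.part 1) * (Nat.card (D.part 1) * h0) := by ring
  refine ⟨Nat.le_of_mul_le_mul_left ?_ hQ0, fun hge => ?_⟩
  · rw [mul_comm (Nat.card Q) (Nat.card (D.part 1))]
    exact hQle.trans (Nat.mul_le_mul_left _ (hT.trans hc1))
  -- equality: torsion fills the quotient
  have hQh : Nat.card Q ≤ h0 := Nat.le_of_mul_le_mul_left (by
    calc Nat.card (D.part 1) * Nat.card Q
        ≤ Nat.card (D.localPart L.HN) * Nat.card (D.localPart L.Hinf) * Nat.card Q :=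
          Nat.mul_le_mul_right _ hge
      _ = Nat.card Q * (Nat.card (D.localPart L.HN) * Nat.card (D.localPart L.Hinf)) := by ring
      _ ≤ Nat.card (D.part 1) * h0 := hQle) hM0
  have hsurj : Function.Surjective ι :=
    (hι.bijective_of_nat_card_le (hQh.trans hT)).2
  -- every point is torsion modulo `e` after projection
  have hstep : ∀ a ∈ D.selmer L, ∃ z ∈ D.selmer L, IsOfFinAddOrder
      (D.u k • D.u k • a - D.e • z) := by
    intro a ha
    obtain ⟨c, hc⟩ := hsurj (QuotientAddGroup.mk (⟨a, ha⟩ : D.selmer L))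
    obtain ⟨x, rfl⟩ := QuotientAddGroup.mk_surjective c
    have hmem : (x : J) - a ∈ D.eisKer L k := by
      have := QuotientAddGroup.eq_iff_sub_mem.1 hc
      exact this
    obtain ⟨⟨z, hz, hez⟩, -⟩ := (D.mem_eisKer L).1 hmem
    refine ⟨-z, neg_mem hz, isOfFinAddOrder_iff_nsmul_eq_zero.2
      ⟨D.e ^ k, pow_pos D.prime.pos _, ?_⟩⟩
    rw [smul_neg, sub_neg_eq_add, hez, ← smul_add, ← smul_add, add_sub_cancel,
      ← r_smul_nsmul, ← r_smul_nsmul, hexp _ x.2, smul_zero, smul_zero]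
  -- Nakayama on the quotient by torsion
  let A : Submodule R J :=
    { (D.selmer L).toAddSubmonoid with smul_mem' := fun r a ha => D.smul_mem_selmer L r ha }
  let Tor : Submodule R A :=
    { carrier := {a | IsOfFinAddOrder (a : J)}
      zero_mem' := IsOfFinAddOrder.zero
      add_mem' := fun {a b} ha hb => ha.add hb
      smul_mem' := fun r a ha => (DistribSMul.toAddMonoidHom J r).isOfFinAddOrder ha }
  have hAfin : Module.Finite R A := by
    have : AddGroup.FG (fixedBy' (Set.univ : Set G) : AddSubgroup J) :=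
      (AddGroup.fg_iff_addSubgroup_fg _).2 hfg
    have : Module.Finite ℤ (fixedBy' (Set.univ : Set G) : AddSubgroup J) :=
      Module.Finite.iff_addGroup_fg.2 inferInstance
    let S' : Submodule ℤ (fixedBy' (Set.univ : Set G) : AddSubgroup J) :=
      ((D.selmer L).comap (AddSubgroup.subtype _)).toIntSubmodule
    obtain ⟨S, hS⟩ := IsNoetherian.noetherian S'
    refine Module.Finite.iff_fg.2 ⟨S.image Subtype.val, le_antisymm (Submodule.span_le.2 ?_) ?_⟩
    · intro x hx
      rw [Finset.coe_image] at hx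
      obtain ⟨s, hs, rfl⟩ := hx
      exact ((hS ▸ Submodule.subset_span hs : s ∈ S') : (s : J) ∈ D.selmer L)
    · intro a ha
      have haS : (⟨a, ha.1⟩ : (fixedBy' (Set.univ : Set G) : AddSubgroup J)) ∈ S' := ha
      rw [← hS] at haS
      suffices ∀ x ∈ Submodule.span ℤ (S : Set (fixedBy' (Set.univ : Set G) : AddSubgroup J)),
          (x : J) ∈ Submodule.span R ((S.image Subtype.val : Finset J) : Set J) from this _ haS
      intro x hx
      induction hx using Submodule.span_induction with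
      | mem x hx => exact Submodule.subset_span (Finset.mem_coe.2 (Finset.mem_image_of_mem _ hx))
      | zero => exact zero_mem _
      | add x y _ _ hx hy => exact add_mem hx hy
      | smul c x _ hx =>
        rw [AddSubgroupClass.coe_zsmul]
        exact zsmul_mem hx c
  let f : Module.End R (A ⧸ Tor) := (D.u k * D.u k) • LinearMap.id
  have hf : LinearMap.range f ≤ (Ideal.span {(D.e : R)} • ⊤ : Submodule R (A ⧸ Tor)) := by
    rintro _ ⟨c, rfl⟩
    obtain ⟨⟨a, ha⟩, rfl⟩ := Submodule.Quotient.mk_surjective Tor c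
    obtain ⟨z, hz, hfin⟩ := hstep a ha
    have : f (Submodule.Quotient.mk ⟨a, ha⟩) =
        (D.e : R) • (Submodule.Quotient.mk ⟨z, hz⟩ : A ⧸ Tor) := by
      show (D.u k * D.u k) • (Submodule.Quotient.mk ⟨a, ha⟩ : A ⧸ Tor) = _
      rw [← Submodule.Quotient.mk_smul, ← Submodule.Quotient.mk_smul, Submodule.Quotient.eq]
      show IsOfFinAddOrder ((D.u k * D.u k) • a - (D.e : R) • z)
      rwa [mul_smul, Nat.cast_smul_eq_nsmul]
    rw [this]
    exact Submodule.smul_mem_smul (Ideal.mem_span_singleton_self _) Submodule.mem_top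
  obtain ⟨p, hp, hdeg, hcoeff, hpf⟩ :=
    LinearMap.exists_monic_and_natDegree_eq_and_coeff_mem_pow_and_aeval_eq_zero (R := R) f
      (Ideal.span {(D.e : R)}) hf
  refine ⟨p.eval (D.u k * D.u k), ?_, fun a ha => ?_⟩
  · have hεe : ∀ r ∈ Ideal.span {(D.e : R)}, D.ε r = 0 := fun r hr => by
      obtain ⟨c, rfl⟩ := Ideal.mem_span_singleton'.1 hr
      rw [map_mul, map_natCast, ZMod.natCast_self, mul_zero]
    rw [Polynomial.eval_eq_sum_range, map_sum, Finset.sum_range_succ, Finset.sum_eq_zero, zero_add,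
      map_mul, Polynomial.Monic.coeff_natDegree hp, map_one, one_mul, map_pow, map_mul, D.eval_u,
      one_mul, one_pow]
    intro j hj
    rw [Finset.mem_range] at hj
    rw [map_mul, hεe _ (Ideal.pow_le_self (by omega) (hcoeff j)), zero_mul]
  · have h := LinearMap.congr_fun hpf (Submodule.Quotient.mk ⟨a, ha⟩)
    have haev : ∀ q : Polynomial R, Polynomial.aeval f q =
        (q.eval (D.u k * D.u k)) • (LinearMap.id : Module.End R (A ⧸ Tor)) := fun q => by
      rw [show f = algebraMap R (Module.End R (A ⧸ Tor)) (D.u k * D.u k) from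
        (Algebra.algebraMap_eq_smul_one _).symm, Polynomial.aeval_algebraMap_apply,
        Algebra.algebraMap_eq_smul_one]
      simp [Polynomial.coe_aeval_eq_eval]; rfl
    rw [haev, LinearMap.smul_apply, LinearMap.id_apply, LinearMap.zero_apply,
      ← Submodule.Quotient.mk_smul, Submodule.Quotient.mk_eq_zero] at h
    exact h

end DescentCtx

end Fermat.Agent.Mazur
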