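import Fermat.Agent.Mazur.Descent.Idempotent

/-!
# The abstract setting of the Eisenstein descent and the layers of fixed points

`J` is an abelian group with an action of a group `G` and of a commutative ring `R`, commuting.
For a set `H ⊆ G` of local automorphisms, `layer H i` is the group of `e`-torsion points of the
form `e^i • y` with `y` fixed by `H`; these stabilise and their sizes control the fixed points
of the `e^k`-torsion.
-/

set_option autoImplicit false

open scoped Classical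

namespace Fermat.Agent.Mazur

variable (G : Type*) [Group G] (J : Type*) [AddCommGroup J] [DistribMulAction G J]

/-- Standing hypotheses of the descent at the prime `e`, with the eigen-idempotents chosen. -/
structure DescentCtx (R : Type*) [CommRing R] [Module R J] where
  e : ℕ
  prime : e.Prime
  comm : ∀ (g : G) (r : R) (x : J), g • r • x = r • g • x
  ε : R →+* ZMod e
  divisible : ∀ x : J, ∃ y : J, e • y = x
  finite_torsion : ∀ k : ℕ, Set.Finite {x : J | e ^ k • x = 0}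
  u : ℕ → R
  isEigenIdem : ∀ k : ℕ, IsEigenIdem ε (Submodule.torsionBy R J ((e ^ k : ℕ) : R)) (u k)

variable {G J} {R : Type*} [CommRing R] [Module R J]

/-- Points fixed by every element of `H`. -/
def fixedBy' (H : Set G) : AddSubgroup J where
  carrier := {x | ∀ g ∈ H, g • x = x}
  zero_mem' g _ := smul_zero g
  add_mem' {x y} hx hy g hg := by rw [smul_add, hx g hg, hy g hg]
  neg_mem' {x} hx g hg := by rw [smul_neg, hx g hg]

lemma mem_fixedBy' {H : Set G} {x : J} : x ∈ fixedBy' H ↔ ∀ g ∈ H, g • x = x := Iff.rfl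

lemma smul_nsmul_comm (g : G) (n : ℕ) (x : J) : g • n • x = n • g • x :=
  map_nsmul (DistribSMul.toAddMonoidHom J g) n x

namespace DescentCtx

variable (D : DescentCtx G J R)

/-- The `e^k`-torsion points. -/
def tors (k : ℕ) : AddSubgroup J where
  carrier := {x | D.e ^ k • x = 0}
  zero_mem' := smul_zero _
  add_mem' {x y} (hx : _ = 0) (hy : _ = 0) := show _ = 0 by rw [smul_add, hx, hy, add_zero]
  neg_mem' {x} (hx : _ = 0) := show _ = 0 by rw [smul_neg, hx, neg_zero]

lemma mem_tors {k : ℕ} {x : J} : x ∈ D.tors k ↔ D.e ^ k • x = 0 := Iff.rfl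

lemma mem_torsionBy_iff' {k : ℕ} {x : J} :
    x ∈ Submodule.torsionBy R J ((D.e ^ k : ℕ) : R) ↔ x ∈ D.tors k := by
  rw [Submodule.mem_torsionBy_iff, Nat.cast_smul_eq_nsmul, D.mem_tors]

lemma tors_mono {j k : ℕ} (h : j ≤ k) : D.tors j ≤ D.tors k := fun x hx => by
  rw [D.mem_tors] at hx ⊢
  obtain ⟨i, rfl⟩ := Nat.exists_eq_add_of_le h
  rw [Nat.add_comm j i, pow_add, mul_smul, hx, smul_zero]

lemma r_smul_nsmul (r : R) (n : ℕ) (x : J) : r • n • x = n • r • x := smul_comm r n x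

lemma smul_mem_tors (r : R) {k : ℕ} {x : J} (hx : x ∈ D.tors k) : r • x ∈ D.tors k := by
  rw [D.mem_tors, ← r_smul_nsmul r, D.mem_tors.1 hx, smul_zero]

lemma g_smul_mem_tors (g : G) {k : ℕ} {x : J} (hx : x ∈ D.tors k) : g • x ∈ D.tors k := by
  rw [D.mem_tors, ← smul_nsmul_comm, D.mem_tors.1 hx, smul_zero]

lemma nsmul_mem_tors {k j : ℕ} {x : J} (hx : x ∈ D.tors (k + j)) : D.e ^ k • x ∈ D.tors j := by
  rw [D.mem_tors, ← mul_smul, ← pow_add, Nat.add_comm, D.mem_tors.1 hx]

instance (k : ℕ) : Finite (D.tors k) := (D.finite_torsion k).to_subtype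

lemma exists_nsmul_pow_eq (k : ℕ) (x : J) : ∃ y : J, D.e ^ k • y = x := by
  induction k generalizing x with
  | zero => exact ⟨x, by rw [pow_zero, one_smul]⟩
  | succ k ih =>
    obtain ⟨y, hy⟩ := D.divisible x
    obtain ⟨z, hz⟩ := ih y
    exact ⟨z, by rw [pow_succ', mul_smul, hz, hy]⟩

include D in
lemma fixed_smul (H : Set G) (r : R) {x : J} (hx : x ∈ fixedBy' H) : r • x ∈ fixedBy' H :=
  fun g hg => by rw [D.comm, hx g hg]

lemma u_idem {k : ℕ} {x : J} (hx : x ∈ D.tors k) : D.u k • D.u k • x = D.u k • x :=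
  (D.isEigenIdem k).idem x (D.mem_torsionBy_iff'.2 hx)

lemma u_eq {j k : ℕ} (hjk : j ≤ k) {x : J} (hx : x ∈ D.tors j) : D.u k • x = D.u j • x := by
  refine ((D.isEigenIdem k).mono ?_).unique (D.isEigenIdem j) (D.mem_torsionBy_iff'.2 hx)
  exact fun v hv => D.mem_torsionBy_iff'.2 (D.tors_mono hjk (D.mem_torsionBy_iff'.1 hv))

lemma eval_u (k : ℕ) : D.ε (D.u k) = 1 := (D.isEigenIdem k).eval

/-- An element of `R` killing the `e^k`-torsion is divisible by `e^k`. -/
lemma exists_div (k : ℕ) (r : R) (hr : ∀ x ∈ D.tors k, r • x = 0) :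
    ∃ φ : J → J, (∀ x, r • x = D.e ^ k • φ x) ∧ (∀ (g : G) x, g • φ x = φ (g • x)) ∧
      (∀ x y, φ (x + y) = φ x + φ y) := by
  choose y hy using D.exists_nsmul_pow_eq k
  have key : ∀ z z', D.e ^ k • z = z' → r • z = r • y z' := fun z z' h => by
    rw [← sub_eq_zero, ← smul_sub]
    exact hr _ (by rw [D.mem_tors, smul_sub, h, hy, sub_self])
  refine ⟨fun x => r • y x, fun x => by rw [← r_smul_nsmul r, hy], fun g x => ?_, fun x x' => ?_⟩
  · show g • r • y x = r • y (g • x)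
    rw [D.comm]
    exact key _ _ (by rw [← smul_nsmul_comm, hy])
  · show r • y (x + x') = r • y x + r • y x'
    rw [← smul_add]
    exact (key _ _ (by rw [smul_add, hy, hy])).symm

/-- The Eisenstein part of the `e^k`-torsion. -/
def part (k : ℕ) : AddSubgroup J where
  carrier := {x | x ∈ D.tors k ∧ D.u k • x = x}
  zero_mem' := ⟨zero_mem _, smul_zero _⟩
  add_mem' {x y} hx hy := ⟨add_mem hx.1 hy.1, by rw [smul_add, hx.2, hy.2]⟩
  neg_mem' {x} hx := ⟨neg_mem hx.1, by rw [smul_neg, hx.2]⟩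

lemma u_smul_mem_part {k : ℕ} {x : J} (hx : x ∈ D.tors k) : D.u k • x ∈ D.part k :=
  ⟨D.smul_mem_tors _ hx, D.u_idem hx⟩

lemma g_smul_mem_part (g : G) {k : ℕ} {x : J} (hx : x ∈ D.part k) : g • x ∈ D.part k :=
  ⟨D.g_smul_mem_tors g hx.1, by rw [← D.comm, hx.2]⟩

lemma r_smul_mem_part (r : R) {k : ℕ} {x : J} (hx : x ∈ D.part k) : r • x ∈ D.part k :=
  ⟨D.smul_mem_tors r hx.1, by rw [smul_comm, hx.2]⟩

instance (k : ℕ) : Finite (D.part k) :=
  Finite.of_injective (fun x : D.part k => (⟨x.1, x.2.1⟩ : D.tors k))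
    fun _ _ h => Subtype.ext (Subtype.mk.inj h)

/-- Fixed points of `H` in the Eisenstein part of the `e^k`-torsion. -/
def fix (H : Set G) (k : ℕ) : AddSubgroup J := D.part k ⊓ fixedBy' H

instance (H : Set G) (k : ℕ) : Finite (D.fix H k) :=
  Finite.of_injective (fun x : D.fix H k => (⟨x.1, x.2.1⟩ : D.part k))
    fun _ _ h => Subtype.ext (Subtype.mk.inj h)

/-- `e`-torsion points that are `e^i` times a point fixed by `H`. -/
def layer (H : Set G) (i : ℕ) : AddSubgroup J where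
  carrier := {x | x ∈ D.tors 1 ∧ ∃ y ∈ fixedBy' H, D.e ^ i • y = x}
  zero_mem' := ⟨zero_mem _, 0, zero_mem _, smul_zero _⟩
  add_mem' {x y} hx hy := by
    obtain ⟨hx1, a, ha, hax⟩ := hx
    obtain ⟨hy1, b, hb, hby⟩ := hy
    exact ⟨add_mem hx1 hy1, a + b, add_mem ha hb, by rw [smul_add, hax, hby]⟩
  neg_mem' {x} hx := by
    obtain ⟨hx1, a, ha, hax⟩ := hx
    exact ⟨neg_mem hx1, -a, neg_mem ha, by rw [smul_neg, hax]⟩

lemma layer_anti (H : Set G) {i j : ℕ} (h : i ≤ j) : D.layer H j ≤ D.layer H i := by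
  rintro x ⟨hx, y, hy, hyx⟩
  obtain ⟨d, rfl⟩ := Nat.exists_eq_add_of_le h
  exact ⟨hx, D.e ^ d • y, nsmul_mem hy _, by rw [← mul_smul, ← pow_add, hyx]⟩

/-- The layers stabilise. -/
lemma exists_layer_stable (H : Set G) :
    ∃ k₀, ∀ k, k₀ ≤ k → D.layer H k = D.layer H k₀ := by
  have hfin : (Set.range (D.layer H)).Finite := by
    refine Set.Finite.of_finite_image (f := fun L : AddSubgroup J => (L : Set J)) ?_
      SetLike.coe_injective.injOn
    refine (D.finite_torsion 1).finite_subsets.subset ?_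
    rintro _ ⟨_, ⟨i, rfl⟩, rfl⟩ x hx
    exact hx.1
  obtain ⟨L, hL⟩ := hfin.exists_minimal (Set.range_nonempty _)
  obtain ⟨k₀, rfl⟩ := hL.prop
  exact ⟨k₀, fun k hk => le_antisymm (D.layer_anti H hk) (hL.2 ⟨k, rfl⟩ (D.layer_anti H hk))⟩

/-- The stable layer. -/
def stableLayer (H : Set G) : AddSubgroup J :=
  ⨅ i, D.layer H i

lemma stableLayer_eq {H : Set G} {k₀ : ℕ} (h : ∀ k, k₀ ≤ k → D.layer H k = D.layer H k₀)
    {k : ℕ} (hk : k₀ ≤ k) : D.layer H k = D.stableLayer H := by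
  refine le_antisymm (le_iInf fun i => ?_) (iInf_le _ k)
  rcases le_total i k with h' | h'
  · exact D.layer_anti H h'
  · rw [h k hk, ← h i (hk.trans h')]

/-- The local subspace of `M = part 1`: the stable layer cut down to the Eisenstein part. -/
def localPart (H : Set G) : AddSubgroup J := D.part 1 ⊓ D.stableLayer H

instance (H : Set G) : Finite (D.localPart H) :=
  Finite.of_injective (fun x : D.localPart H => (⟨x.1, x.2.1⟩ : D.part 1))
    fun _ _ h => Subtype.ext (Subtype.mk.inj h)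

/-- Multiplication by `e^k` from the fixed part of level `k+1` onto the `k`-th layer of `M`. -/
lemma card_fix_succ (H : Set G) (k : ℕ) :
    Nat.card (D.fix H (k + 1)) =
      Nat.card (D.fix H k) * Nat.card (D.part 1 ⊓ D.layer H k : AddSubgroup J) := by
  let φ : D.fix H (k + 1) →+ J := (DistribSMul.toAddMonoidHom J (D.e ^ k)).comp (AddSubgroup.subtype _)
  have hker : φ.ker = (D.fix H k).addSubgroupOf (D.fix H (k + 1)) := by
    ext ⟨x, hx⟩
    show D.e ^ k • x = 0 ↔ x ∈ D.fix H k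
    constructor
    · intro h
      exact ⟨⟨h, by rw [← D.u_eq k.le_succ h]; exact hx.1.2⟩, hx.2⟩
    · exact fun h => h.1.1
  have hle : D.fix H k ≤ D.fix H (k + 1) := fun x hx =>
    ⟨⟨D.tors_mono k.le_succ hx.1.1, by rw [D.u_eq k.le_succ hx.1.1]; exact hx.1.2⟩, hx.2⟩
  have hrange : φ.range = D.part 1 ⊓ D.layer H k := by
    ext z
    constructor
    · rintro ⟨⟨x, hx⟩, rfl⟩
      have ht : D.e ^ k • x ∈ D.tors 1 := D.nsmul_mem_tors hx.1.1
      refine ⟨⟨ht, ?_⟩, ht, x, hx.2, rfl⟩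
      show D.u 1 • D.e ^ k • x = D.e ^ k • x
      rw [← D.u_eq (Nat.le_add_left 1 k) ht, r_smul_nsmul, hx.1.2]
    · rintro ⟨⟨hz1, hzu⟩, -, y, hy, hyz⟩
      have hy1 : y ∈ D.tors (k + 1) := by
        rw [D.mem_tors, pow_succ', mul_smul, hyz]
        simpa [pow_one] using D.mem_tors.1 hz1
      refine ⟨⟨D.u (k + 1) • y, D.u_smul_mem_part hy1, D.fixed_smul H _ hy⟩, ?_⟩
      show D.e ^ k • D.u (k + 1) • y = z
      rw [← r_smul_nsmul, hyz, D.u_eq (Nat.le_add_left 1 k) hz1, hzu]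
  rw [AddSubgroup.card_eq_card_quotient_mul_card_addSubgroup φ.ker,
    Nat.card_congr (QuotientAddGroup.quotientKerEquivRange φ).toEquiv, hrange, hker,
    Nat.card_congr (AddSubgroup.addSubgroupOfEquivOfLe hle).toEquiv, mul_comm]

lemma card_fix_zero (H : Set G) : Nat.card (D.fix H 0) = 1 := by
  have : D.fix H 0 = ⊥ := (AddSubgroup.eq_bot_iff_forall _).2 fun x hx => by
    simpa [D.mem_tors] using hx.1.1
  rw [this, AddSubgroup.card_bot]

lemma fixedBy'_empty : (fixedBy' (∅ : Set G) : AddSubgroup J) = ⊤ := by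
  ext x; simp [mem_fixedBy']

lemma fix_empty (k : ℕ) : D.fix ∅ k = D.part k := by
  rw [fix, fixedBy'_empty, inf_top_eq]

lemma card_part (k : ℕ) : Nat.card (D.part k) = Nat.card (D.part 1) ^ k := by
  have hl : ∀ i, D.part 1 ⊓ D.layer (∅ : Set G) i = D.part 1 := fun i => inf_eq_left.2 fun x hx => by
    obtain ⟨y, hy⟩ := D.exists_nsmul_pow_eq i x
    exact ⟨hx.1, y, by rw [fixedBy'_empty]; trivial, hy⟩
  induction k with
  | zero => rw [pow_zero, ← D.fix_empty, D.card_fix_zero]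
  | succ k ih => rw [← D.fix_empty, D.card_fix_succ, hl, D.fix_empty, ih, pow_succ]

/-- The fixed points grow like the `k`-th power of the local part. -/
lemma exists_card_fix_le (H : Set G) :
    ∃ C, 0 < C ∧ ∀ k, Nat.card (D.fix H k) ≤ C * Nat.card (D.localPart H) ^ k := by
  obtain ⟨k₀, hk₀⟩ := D.exists_layer_stable H
  have hb : ∀ k, Nat.card (D.part 1 ⊓ D.layer H k : AddSubgroup J) ≤ Nat.card (D.part 1) :=
    fun k => AddSubgroup.card_le_of_le inf_le_left
  refine ⟨Nat.card (D.part 1) ^ k₀, pow_pos Nat.card_pos _, fun k => ?_⟩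
  have h1 : 0 < Nat.card (D.localPart H) := Nat.card_pos
  have key : Nat.card (D.fix H k) ≤
      Nat.card (D.part 1) ^ (min k k₀) * Nat.card (D.localPart H) ^ (k - k₀) := by
    induction k with
    | zero => simp [D.card_fix_zero]
    | succ k ih =>
      rw [D.card_fix_succ]
      rcases lt_or_ge k k₀ with hlt | hge
      · rw [Nat.min_eq_left hlt, Nat.sub_eq_zero_of_le hlt, pow_zero, mul_one, pow_succ]
        rw [Nat.min_eq_left hlt.le, Nat.sub_eq_zero_of_le hlt.le, pow_zero, mul_one] at ih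
        exact Nat.mul_le_mul ih (hb k)
      · rw [D.stableLayer_eq hk₀ hge]
        rw [Nat.min_eq_right hge] at ih
        rw [Nat.min_eq_right (hge.trans k.le_succ), Nat.succ_sub hge, pow_succ, ← mul_assoc]
        exact Nat.mul_le_mul_right _ ih
  exact key.trans (Nat.mul_le_mul (Nat.pow_le_pow_right Nat.card_pos (min_le_right _ _))
    (Nat.pow_le_pow_right h1 (Nat.sub_le _ _)))

/-- If the fixed points are at least half of the Eisenstein part at every level, so is the
local part. -/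
lemma card_part_le_sq (H : Set G)
    (h : ∀ k, Nat.card (D.part k) ≤ Nat.card (D.fix H k) ^ 2) :
    Nat.card (D.part 1) ≤ Nat.card (D.localPart H) ^ 2 := by
  obtain ⟨C, hC, hfix⟩ := D.exists_card_fix_le H
  by_contra hlt
  push Not at hlt
  set a := Nat.card (D.localPart H) ^ 2 with ha
  set m := Nat.card (D.part 1) with hm
  have hbound : ∀ k, m ^ k ≤ C ^ 2 * a ^ k := fun k => by
    rw [← D.card_part, ha, ← pow_mul, mul_comm 2 k, pow_mul, ← mul_pow]
    exact (h k).trans (Nat.pow_le_pow_left (hfix k) 2)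
  have hgrow : ∀ k : ℕ, (a + 1) * (k + 1) * a ^ k ≤ (a + 1) ^ (k + 1) * (a + 1) := by
    intro k
    induction k with
    | zero => simp
    | succ k ih =>
      have h1 : a ^ (k + 1) ≤ (a + 1) ^ (k + 1) := Nat.pow_le_pow_left a.le_succ _
      calc (a + 1) * (k + 1 + 1) * a ^ (k + 1)
          = a * ((a + 1) * (k + 1) * a ^ k) + (a + 1) * a ^ (k + 1) := by ring
        _ ≤ a * ((a + 1) ^ (k + 1) * (a + 1)) + (a + 1) * (a + 1) ^ (k + 1) := by gcongr
        _ = (a + 1) ^ (k + 1 + 1) * (a + 1) := by ring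
  obtain ⟨k, hk⟩ : ∃ k, k = C ^ 2 * (a + 1) + 1 := ⟨_, rfl⟩
  have h2 : (a + 1) ^ (k + 1) ≤ C ^ 2 * a ^ (k + 1) :=
    (Nat.pow_le_pow_left hlt _).trans (hbound _)
  have h3 : (a + 1) * (k + 1) * a ^ k ≤ C ^ 2 * a ^ (k + 1) * (a + 1) :=
    (hgrow k).trans (Nat.mul_le_mul_right _ h2)
  have hapos : 0 < a ^ k := pow_pos (by rw [ha]; exact pow_pos Nat.card_pos _) _
  have h4 : (k + 1) ≤ C ^ 2 * a := by
    rw [pow_succ a k, show C ^ 2 * (a ^ k * a) * (a + 1) = C ^ 2 * a * a ^ k * (a + 1) by ring,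
      show (a + 1) * (k + 1) * a ^ k = (k + 1) * a ^ k * (a + 1) by ring] at h3
    exact Nat.le_of_mul_le_mul_right (Nat.le_of_mul_le_mul_right h3 (Nat.succ_pos a)) hapos
  rw [hk] at h4
  nlinarith

end DescentCtx

end Fermat.Agent.Mazur
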