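import Fermat.Agent.Mazur.Descent.Setup

/-!
# Cocycles with two local corrections and their count

For a stable subgroup `M` the triples `(f, a, b)` consist of a cocycle `f : G → M` vanishing
on a given set and of corrections making it vanish on two local sets.
If on every line this condition forces coboundaries, there are at most `#M ^ 2` triples.
-/

set_option autoImplicit false

namespace Fermat.Agent.Mazur

variable {G : Type*} [Group G] {J : Type*} [AddCommGroup J] [DistribMulAction G J]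

/-- The two local sets and the set on which cocycles are required to vanish. -/
structure LocalData (G : Type*) [Group G] (e : ℕ) where
  HN : Set G
  Hinf : Set G
  Z : Set G

namespace LocalData

variable {e : ℕ} (L : LocalData G e)

/-- Triples with values in `M`. -/
def triples (M : AddSubgroup J) : AddSubgroup ((G → J) × J × J) where
  carrier := {z | (∀ σ, z.1 σ ∈ M) ∧ z.2.1 ∈ M ∧ z.2.2 ∈ M ∧
    (∀ σ τ, z.1 (σ * τ) = z.1 σ + σ • z.1 τ) ∧ (∀ σ ∈ L.Z, z.1 σ = 0) ∧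
    (∀ σ ∈ L.HN, z.1 σ + σ • z.2.1 - z.2.1 = 0) ∧
    (∀ σ ∈ L.Hinf, z.1 σ + σ • z.2.2 - z.2.2 = 0)}
  zero_mem' := ⟨fun _ => zero_mem _, zero_mem _, zero_mem _, fun _ _ => by simp, fun _ _ => rfl,
    fun _ _ => by simp, fun _ _ => by simp⟩
  add_mem' := by
    rintro ⟨f, a, b⟩ ⟨f', a', b'⟩ ⟨h1, h2, h3, h4, h5, h6, h7⟩ ⟨g1, g2, g3, g4, g5, g6, g7⟩
    simp only at h1 h2 h3 h4 h5 h6 h7 g1 g2 g3 g4 g5 g6 g7
    refine ⟨fun σ => add_mem (h1 σ) (g1 σ), add_mem h2 g2, add_mem h3 g3, fun σ τ => ?_,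
      fun σ hσ => ?_, fun σ hσ => ?_, fun σ hσ => ?_⟩
    · show f (σ * τ) + f' (σ * τ) = f σ + f' σ + σ • (f τ + f' τ)
      rw [h4, g4, smul_add]; abel
    · show f σ + f' σ = 0
      rw [h5 σ hσ, g5 σ hσ, add_zero]
    · show f σ + f' σ + σ • (a + a') - (a + a') = 0
      have e1 := h6 σ hσ; have e2 := g6 σ hσ
      rw [sub_eq_zero] at e1 e2 ⊢
      conv_rhs => rw [← e1, ← e2]
      rw [smul_add]; abel
    · show f σ + f' σ + σ • (b + b') - (b + b') = 0
      have e1 := h7 σ hσ; have e2 := g7 σ hσ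
      rw [sub_eq_zero] at e1 e2 ⊢
      conv_rhs => rw [← e1, ← e2]
      rw [smul_add]; abel
  neg_mem' := by
    rintro ⟨f, a, b⟩ ⟨h1, h2, h3, h4, h5, h6, h7⟩
    simp only at h1 h2 h3 h4 h5 h6 h7
    refine ⟨fun σ => neg_mem (h1 σ), neg_mem h2, neg_mem h3, fun σ τ => ?_,
      fun σ hσ => ?_, fun σ hσ => ?_, fun σ hσ => ?_⟩
    · show -f (σ * τ) = -f σ + σ • -f τ
      rw [h4, smul_neg]; abel
    · show -f σ = 0
      rw [h5 σ hσ, neg_zero]
    · show -f σ + σ • -a - -a = 0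
      rw [smul_neg, ← neg_eq_zero, ← h6 σ hσ]; abel
    · show -f σ + σ • -b - -b = 0
      rw [smul_neg, ← neg_eq_zero, ← h7 σ hσ]; abel

/-- Triples on a line with character `ψ`. -/
def lineTriples (ψ : G → ZMod e) : Set ((G → ZMod e) × ZMod e × ZMod e) :=
  {z | (∀ σ τ, z.1 (σ * τ) = z.1 σ + ψ σ * z.1 τ) ∧ (∀ σ ∈ L.Z, z.1 σ = 0) ∧
    (∀ σ ∈ L.HN, z.1 σ + ψ σ * z.2.1 - z.2.1 = 0) ∧
    (∀ σ ∈ L.Hinf, z.1 σ + ψ σ * z.2.2 - z.2.2 = 0)}

/-- The characters that occur on lines: cocycles with the condition are coboundaries, and a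
non-trivial one is detected on `Hinf`. -/
def AdmissibleChar (ψ : G → ZMod e) : Prop :=
  (∀ (f : G → ZMod e) (a b : ZMod e), (∀ σ τ, f (σ * τ) = f σ + ψ σ * f τ) →
    (∀ σ ∈ L.Z, f σ = 0) → (∀ σ ∈ L.HN, f σ + ψ σ * a - a = 0) →
    (∀ σ ∈ L.Hinf, f σ + ψ σ * b - b = 0) →
    ∃ x, ∀ σ, f σ = ψ σ * x - x) ∧
  ((∀ σ, ψ σ = 1) ∨ ∃ σ ∈ L.Hinf, IsUnit (ψ σ - 1))

/-- Every non-zero stable subgroup of `M` has an admissible line quotient. -/
def HasLines (M : AddSubgroup J) : Prop :=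
  ∀ M' : AddSubgroup J, M' ≤ M → M' ≠ ⊥ → (∀ (σ : G), ∀ x ∈ M', σ • x ∈ M') →
    ∃ (π : M' →+ ZMod e) (ψ : G → ZMod e), Function.Surjective π ∧ L.AdmissibleChar ψ ∧
      ∀ (σ : G) (x y : M'), (y : J) = σ • (x : J) → π y = ψ σ * π x

variable [Fact e.Prime]

lemma lineTriples_finite (ψ : G → ZMod e) (hψ : L.AdmissibleChar ψ) :
    (L.lineTriples ψ).Finite ∧ (L.lineTriples ψ).ncard ≤ e ^ 2 := by
  have hcard : Nat.card (ZMod e × ZMod e) = e ^ 2 := by
    rw [Nat.card_prod, Nat.card_zmod, sq]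
  have key : ∃ g : ZMod e × ZMod e → (G → ZMod e) × ZMod e × ZMod e,
      L.lineTriples ψ ⊆ Set.range g := by
    obtain ⟨hcob, htriv | ⟨σ₀, hσ₀, hu⟩⟩ := hψ
    · refine ⟨fun p => (0, p.1, p.2), ?_⟩
      rintro ⟨f, a, b⟩ ⟨hf, hgood, hN, hinf⟩
      obtain ⟨x, hx⟩ := hcob f a b hf hgood hN hinf
      refine ⟨(a, b), Prod.ext (funext fun σ => ?_) rfl⟩
      show (0 : ZMod e) = f σ
      exact (show f σ = 0 by rw [hx, htriv, one_mul, sub_self]).symm
    · refine ⟨fun p => (fun σ => ψ σ * p.1 - p.1, p.2, -p.1), ?_⟩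
      rintro ⟨f, a, b⟩ ⟨hf, hgood, hN, hinf⟩
      obtain ⟨x, hx⟩ := hcob f a b hf hgood hN hinf
      refine ⟨(x, a), Prod.ext (funext fun σ => (hx σ).symm) (Prod.ext rfl ?_)⟩
      have h := hinf σ₀ hσ₀
      simp only at h ⊢
      rw [hx σ₀] at h
      have h2 : (ψ σ₀ - 1) * (x + b) = 0 := by linear_combination h
      rw [hu.mul_right_eq_zero] at h2
      exact neg_eq_of_add_eq_zero_right h2
  obtain ⟨g, hg⟩ := key
  refine ⟨(Set.finite_range g).subset hg, ?_⟩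
  calc (L.lineTriples ψ).ncard ≤ (Set.range g).ncard :=
        Set.ncard_le_ncard hg (Set.finite_range g)
    _ ≤ Nat.card (ZMod e × ZMod e) := by
        rw [← Nat.card_coe_set_eq]
        exact Nat.card_le_card_of_surjective _ Set.rangeFactorization_surjective
    _ = e ^ 2 := hcard

/-- At most `#M ^ 2` triples. -/
theorem triples_bound (M : AddSubgroup J) [Finite M] (hM : ∀ (σ : G), ∀ x ∈ M, σ • x ∈ M)
    (hlines : L.HasLines M) :
    Finite (L.triples M) ∧ Nat.card (L.triples M) ≤ Nat.card M ^ 2 := by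
  have key : ∀ (n : ℕ) (M' : AddSubgroup J), Nat.card M' = n → M' ≤ M →
      (∀ (σ : G), ∀ x ∈ M', σ • x ∈ M') →
      Finite (L.triples M') ∧ Nat.card (L.triples M') ≤ n ^ 2 := by
    intro n
    induction n using Nat.strong_induction_on with
    | _ n IH =>
    intro M' hn hle hst
    have : Finite M' := Finite.of_injective _ (AddSubgroup.inclusion_injective hle)
    rcases eq_or_ne M' ⊥ with rfl | hne
    · have hbot : L.triples (⊥ : AddSubgroup J) = ⊥ := by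
        refine (AddSubgroup.eq_bot_iff_forall _).2 ?_
        rintro ⟨f, a, b⟩ ⟨h1, h2, h3, -⟩
        simp only [AddSubgroup.mem_bot] at h1 h2 h3
        exact Prod.ext (funext h1) (Prod.ext h2 h3)
      rw [hbot]
      refine ⟨inferInstance, ?_⟩
      rw [← hn, AddSubgroup.card_bot, AddSubgroup.card_bot, one_pow]
    obtain ⟨π, ψ, hπ, hψ, hπψ⟩ := hlines M' hle hne hst
    set M'' : AddSubgroup J := π.ker.map M'.subtype with hM''
    have hmem : ∀ x : J, x ∈ M'' ↔ ∃ h : x ∈ M', π ⟨x, h⟩ = 0 := fun x => by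
      rw [hM'', AddSubgroup.mem_map]
      exact ⟨fun ⟨⟨y, hy⟩, h1, h2⟩ => h2 ▸ ⟨hy, h1⟩, fun ⟨h, h1⟩ => ⟨⟨x, h⟩, h1, rfl⟩⟩
    have hle'' : M'' ≤ M' := fun x hx => ((hmem x).1 hx).1
    have hcard : Nat.card M'' * e = n := by
      rw [← hn, hM'', Nat.card_congr (π.ker.equivMapOfInjective _ M'.subtype_injective).toEquiv.symm,
        AddSubgroup.card_eq_card_quotient_mul_card_addSubgroup π.ker,
        Nat.card_congr (QuotientAddGroup.quotientKerEquivOfSurjective π hπ).toEquiv, Nat.card_zmod,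
        mul_comm]
    have hpos : 0 < Nat.card M'' := by
      rcases Nat.eq_zero_or_pos (Nat.card M'') with h | h
      · exfalso; rw [h, zero_mul] at hcard; rw [← hcard] at hn
        exact Nat.card_pos.ne' hn
      · exact h
    have hlt : Nat.card M'' < n := by
      rw [← hcard]; exact lt_mul_of_one_lt_right hpos (Fact.out : e.Prime).one_lt
    have hst'' : ∀ (σ : G), ∀ x ∈ M'', σ • x ∈ M'' := fun σ x hx => by
      obtain ⟨h, h0⟩ := (hmem x).1 hx
      refine (hmem _).2 ⟨hst σ x h, ?_⟩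
      rw [hπψ σ ⟨x, h⟩ ⟨σ • x, hst σ x h⟩ rfl, h0, mul_zero]
    obtain ⟨hfin'', hc''⟩ := IH _ hlt M'' rfl (hle''.trans hle) hst''
    obtain ⟨hfinL, hcL⟩ := L.lineTriples_finite ψ hψ
    classical
    let p : J → ZMod e := fun x => if h : x ∈ M' then π ⟨x, h⟩ else 0
    have p_eq : ∀ x (h : x ∈ M'), p x = π ⟨x, h⟩ := fun x h => dif_pos h
    have p_add : ∀ x y, x ∈ M' → y ∈ M' → p (x + y) = p x + p y := fun x y hx hy => by
      rw [p_eq _ (add_mem hx hy), p_eq _ hx, p_eq _ hy, ← map_add]; rfl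
    have p_sub : ∀ x y, x ∈ M' → y ∈ M' → p (x - y) = p x - p y := fun x y hx hy => by
      rw [p_eq _ (sub_mem hx hy), p_eq _ hx, p_eq _ hy, ← map_sub]; rfl
    have p_zero : p 0 = 0 := by rw [p_eq _ (zero_mem _)]; exact map_zero π
    have p_smul : ∀ (σ : G) x, x ∈ M' → p (σ • x) = ψ σ * p x := fun σ x hx => by
      rw [p_eq _ (hst σ x hx), p_eq _ hx, hπψ σ ⟨x, hx⟩ ⟨σ • x, hst σ x hx⟩ rfl]
    have p_ker : ∀ x, x ∈ M' → p x = 0 → x ∈ M'' := fun x hx h => by
      rw [p_eq _ hx] at h; exact (hmem x).2 ⟨hx, h⟩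
    let ρ : L.triples M' →+ (G → ZMod e) × ZMod e × ZMod e :=
      { toFun := fun z => (fun σ => p (z.1.1 σ), p z.1.2.1, p z.1.2.2)
        map_zero' := Prod.ext (funext fun _ => p_zero) (Prod.ext p_zero p_zero)
        map_add' := fun z w => Prod.ext (funext fun σ => p_add _ _ (z.2.1 σ) (w.2.1 σ))
          (Prod.ext (p_add _ _ z.2.2.1 w.2.2.1) (p_add _ _ z.2.2.2.1 w.2.2.2.1)) }
    have hρ : ∀ z, ρ z ∈ L.lineTriples ψ := by
      rintro ⟨⟨f, a, b⟩, h1, h2, h3, h4, h5, h6, h7⟩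
      simp only at h1 h2 h3 h4 h5 h6 h7
      refine ⟨fun σ τ => ?_, fun σ hσ => ?_, fun σ hσ => ?_, fun σ hσ => ?_⟩
      · show p (f (σ * τ)) = p (f σ) + ψ σ * p (f τ)
        rw [h4, p_add _ _ (h1 σ) (hst σ _ (h1 τ)), p_smul σ _ (h1 τ)]
      · show p (f σ) = 0
        rw [h5 σ hσ, p_zero]
      · show p (f σ) + ψ σ * p a - p a = 0
        rw [← p_smul σ a h2, ← p_add _ _ (h1 σ) (hst σ _ h2),
          ← p_sub _ _ (add_mem (h1 σ) (hst σ _ h2)) h2, h6 σ hσ, p_zero]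
      · show p (f σ) + ψ σ * p b - p b = 0
        rw [← p_smul σ b h3, ← p_add _ _ (h1 σ) (hst σ _ h3),
          ← p_sub _ _ (add_mem (h1 σ) (hst σ _ h3)) h3, h7 σ hσ, p_zero]
    have hrange : Finite ρ.range ∧ Nat.card ρ.range ≤ e ^ 2 := by
      have hsub : (ρ.range : Set ((G → ZMod e) × ZMod e × ZMod e)) ⊆ L.lineTriples ψ := by
        rintro _ ⟨z, rfl⟩; exact hρ z
      have hf := hfinL.subset hsub
      refine ⟨hf.to_subtype, ?_⟩
      have h := Set.ncard_le_ncard hsub hfinL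
      rw [← Nat.card_coe_set_eq] at h
      exact h.trans hcL
    have hkerle : ∀ z : ρ.ker, (z.1.1 : (G → J) × J × J) ∈ L.triples M'' := by
      rintro ⟨⟨⟨f, a, b⟩, h1, h2, h3, h4, h5, h6, h7⟩, hk⟩
      simp only at h1 h2 h3 h4 h5 h6 h7
      rw [AddMonoidHom.mem_ker] at hk
      have hf : ∀ σ, p (f σ) = 0 := fun σ => congrFun (congrArg Prod.fst hk) σ
      exact ⟨fun σ => p_ker _ (h1 σ) (hf σ), p_ker _ h2 (congrArg (fun w => w.2.1) hk),
        p_ker _ h3 (congrArg (fun w => w.2.2) hk), h4, h5, h6, h7⟩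
    let ι : ρ.ker → L.triples M'' := fun z => ⟨z.1.1, hkerle z⟩
    have hι : Function.Injective ι := fun z w h => Subtype.ext (Subtype.ext (congrArg (fun t => t.1) h))
    have := hrange.1
    have := hfin''
    have hkerfin : Finite ρ.ker := Finite.of_injective ι hι
    have hkercard : Nat.card ρ.ker ≤ Nat.card M'' ^ 2 :=
      (Nat.card_le_card_of_injective ι hι).trans hc''
    have : Finite (L.triples M' ⧸ ρ.ker) :=
      Finite.of_equiv _ (QuotientAddGroup.quotientKerEquivRange ρ).toEquiv.symm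
    refine ⟨Finite.of_equiv _ (AddSubgroup.addGroupEquivQuotientProdAddSubgroup (s := ρ.ker)).symm, ?_⟩
    rw [AddSubgroup.card_eq_card_quotient_mul_card_addSubgroup ρ.ker,
      Nat.card_congr (QuotientAddGroup.quotientKerEquivRange ρ).toEquiv, ← hcard, mul_pow, mul_comm]
    exact Nat.mul_le_mul hkercard hrange.2
  exact key _ M rfl le_rfl hM

end LocalData

end Fermat.Agent.Mazur
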